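/-
S35lib / New / FreeEval  (helper6).   Mathlib only.

Evaluation of a NON-COMMUTATIVE integer polynomial `P : FreeRing ι` at a family `T : ι → R` of
elements of an arbitrary ring (`FreeRing.lift T P`), and the three generic facts used along route FN
(brick R2: the "Hecke killer"):

* `lift_map`        : ring homs commute with evaluation;
* `lift_intertwine` : an additive map intertwining `S i` with `T i` intertwines `P(S)` with `P(T)`;
* `lift_eigen`      : on a common eigenvector `P(T)` acts as the scalar `P(a)`.

No commutativity of the `T i` is ever needed (this is why `FreeRing` and not `MvPolynomial`).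
-/
import Mathlib

set_option autoImplicit false

namespace Fermat.Agent.S35lib.New

variable {ι : Type*}

/-- ring homs commute with evaluation of a free-ring element -/
theorem lift_map {A B : Type*} [Ring A] [Ring B] (ψ : A →+* B) (T : ι → A) (P : FreeRing ι) :
    ψ (FreeRing.lift T P) = FreeRing.lift (fun i => ψ (T i)) P := by
  have h : ψ.comp (FreeRing.lift T) = FreeRing.lift (fun i => ψ (T i)) := by
    apply FreeRing.hom_ext
    intro i
    rw [RingHom.comp_apply, FreeRing.lift_of, FreeRing.lift_of]
  exact DFunLike.congr_fun h P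

/-- evaluation in a product ring is componentwise -/
theorem lift_prod {A B : Type*} [Ring A] [Ring B] (S : ι → A) (T : ι → B) (P : FreeRing ι) :
    FreeRing.lift (fun i => (S i, T i)) P = (FreeRing.lift S P, FreeRing.lift T P) := by
  refine Prod.ext ?_ ?_
  · exact lift_map (RingHom.fst A B) (fun i => (S i, T i)) P
  · exact lift_map (RingHom.snd A B) (fun i => (S i, T i)) P

/-- evaluation in a subring -/
theorem lift_subring {A : Type*} [Ring A] (R : Subring A) (T : ι → A) (hT : ∀ i, T i ∈ R)
    (P : FreeRing ι) : FreeRing.lift T P ∈ R := by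
  have h := lift_map R.subtype (fun i => (⟨T i, hT i⟩ : R)) P
  simp only [Subring.subtype_apply] at h
  rw [← h]
  exact Subtype.property _

section Intertwine

variable {V W : Type*} [AddCommGroup V] [AddCommGroup W]

/-- the pairs `(a, b)` of endomorphisms intertwined by `φ` form a subring of the product -/
def intertwineSubring (φ : V →+ W) : Subring (AddMonoid.End V × AddMonoid.End W) where
  carrier := {ab | ∀ v, φ (ab.1 v) = ab.2 (φ v)}
  mul_mem' := by
    intro a b ha hb v
    show φ (a.1 (b.1 v)) = a.2 (b.2 (φ v))
    rw [ha, hb]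
  one_mem' := fun v => rfl
  add_mem' := by
    intro a b ha hb v
    show φ (a.1 v + b.1 v) = a.2 (φ v) + b.2 (φ v)
    rw [map_add, ha, hb]
  zero_mem' := by
    intro v
    show φ 0 = 0
    exact map_zero φ
  neg_mem' := by
    intro a ha v
    show φ (-(a.1 v)) = -(a.2 (φ v))
    rw [map_neg, ha]

/-- **intertwining**: if `φ ∘ S i = T i ∘ φ` for all `i` then `φ ∘ P(S) = P(T) ∘ φ`. -/
theorem lift_intertwine (φ : V →+ W) (S : ι → AddMonoid.End V) (T : ι → AddMonoid.End W)
    (h : ∀ i v, φ (S i v) = T i (φ v)) (P : FreeRing ι) (v : V) :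
    φ (FreeRing.lift S P v) = FreeRing.lift T P (φ v) := by
  have h1 := lift_subring (intertwineSubring φ) (fun i => (S i, T i)) (fun i v => h i v) P
  rw [lift_prod] at h1
  exact h1 v

end Intertwine

section Linear

variable {R : Type*} [CommRing R] {M M' : Type*} [AddCommGroup M] [Module R M]
  [AddCommGroup M'] [Module R M']

/-- the pairs `(a, b)` of linear endomorphisms intertwined by `φ` form a subring -/
def intertwineSubringLin (φ : M →ₗ[R] M') : Subring (Module.End R M × Module.End R M') where
  carrier := {ab | ∀ v, φ (ab.1 v) = ab.2 (φ v)}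
  mul_mem' := by
    intro a b ha hb v
    show φ (a.1 (b.1 v)) = a.2 (b.2 (φ v))
    rw [ha, hb]
  one_mem' := fun v => rfl
  add_mem' := by
    intro a b ha hb v
    show φ (a.1 v + b.1 v) = a.2 (φ v) + b.2 (φ v)
    rw [map_add, ha, hb]
  zero_mem' := by
    intro v
    show φ 0 = 0
    exact map_zero φ
  neg_mem' := by
    intro a ha v
    show φ (-(a.1 v)) = -(a.2 (φ v))
    rw [map_neg, ha]

/-- **intertwining, linear version** -/
theorem lift_intertwine_lin (φ : M →ₗ[R] M') (S : ι → Module.End R M) (T : ι → Module.End R M')
    (h : ∀ i v, φ (S i v) = T i (φ v)) (P : FreeRing ι) (v : M) :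
    φ (FreeRing.lift S P v) = FreeRing.lift T P (φ v) := by
  have h1 := lift_subring (intertwineSubringLin φ) (fun i => (S i, T i)) (fun i v => h i v) P
  rw [lift_prod] at h1
  exact h1 v

/-- the pairs `(a, c)` with `a v = c • v` form a subring of `End × R` -/
def eigenSubring (v : M) : Subring (Module.End R M × R) where
  carrier := {ac | ac.1 v = ac.2 • v}
  mul_mem' := by
    intro a b ha hb
    show a.1 (b.1 v) = (a.2 * b.2) • v
    have ha' : a.1 v = a.2 • v := ha
    have hb' : b.1 v = b.2 • v := hb
    rw [hb', map_smul, ha', smul_smul, mul_comm]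
  one_mem' := by
    show (1 : Module.End R M) v = (1 : R) • v
    rw [one_smul]; rfl
  add_mem' := by
    intro a b ha hb
    show a.1 v + b.1 v = (a.2 + b.2) • v
    have ha' : a.1 v = a.2 • v := ha
    have hb' : b.1 v = b.2 • v := hb
    rw [ha', hb', add_smul]
  zero_mem' := by
    show (0 : Module.End R M) v = (0 : R) • v
    rw [zero_smul]; rfl
  neg_mem' := by
    intro a ha
    show -(a.1 v) = (-a.2) • v
    have ha' : a.1 v = a.2 • v := ha
    rw [ha', neg_smul]

/-- **on a common eigenvector, `P(T)` acts as the scalar `P(a)`.** -/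
theorem lift_eigen (T : ι → Module.End R M) (a : ι → R) (v : M) (h : ∀ i, T i v = a i • v)
    (P : FreeRing ι) : FreeRing.lift T P v = FreeRing.lift a P • v := by
  have h1 := lift_subring (eigenSubring (R := R) v) (fun i => (T i, a i)) (fun i => h i) P
  rw [lift_prod] at h1
  exact h1

end Linear

section Matrix

variable {n : Type*} [Fintype n] [DecidableEq n]

/-- evaluation commutes with entrywise base change of matrices -/
theorem lift_matrix_map {R S : Type*} [Ring R] [Ring S] (f : R →+* S) (t : ι → Matrix n n R)
    (P : FreeRing ι) :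
    (FreeRing.lift t P).map f = FreeRing.lift (fun i => (t i).map f) P :=
  lift_map f.mapMatrix t P

/-- **intertwining, matrix version**: if `φ (S i v) = t i *ᵥ φ v` then `φ (P(S) v) = P(t) *ᵥ φ v`. -/
theorem lift_intertwine_mulVec {V : Type*} [AddCommGroup V] {R : Type*} [CommRing R]
    (φ : V →+ (n → R)) (S : ι → AddMonoid.End V) (t : ι → Matrix n n R)
    (h : ∀ i v, φ (S i v) = (t i).mulVec (φ v)) (P : FreeRing ι) (v : V) :
    φ (FreeRing.lift S P v) = (FreeRing.lift t P).mulVec (φ v) := by
  -- the ring hom `Matrix → AddMonoid.End (n → R)`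
  let Ψ : Matrix n n R →+* AddMonoid.End (n → R) :=
    { toFun := fun m => (Matrix.mulVecLin m).toAddMonoidHom
      map_one' := by
        ext w : 1
        show Matrix.mulVec 1 w = w
        rw [Matrix.one_mulVec]
      map_mul' := by
        intro a b
        ext w : 1
        show Matrix.mulVec (a * b) w = Matrix.mulVec a (Matrix.mulVec b w)
        rw [Matrix.mulVec_mulVec]
      map_zero' := by
        ext w : 1
        show Matrix.mulVec 0 w = 0
        rw [Matrix.zero_mulVec]
      map_add' := by
        intro a b
        ext w : 1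
        show Matrix.mulVec (a + b) w = Matrix.mulVec a w + Matrix.mulVec b w
        rw [Matrix.add_mulVec] }
  have h1 := lift_intertwine φ S (fun i => Ψ (t i)) (fun i v => h i v) P v
  rw [h1, ← lift_map Ψ t P]
  rfl

end Matrix

end Fermat.Agent.S35lib.New
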