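/-
S35lib / New / KillerJ  (helper6; route FN, brick R2.2).

**From forms to the Jacobian.**  If a non-commutative integer polynomial `P : FreeRing ι` in the
Hecke operators (`e : ι → Nat.Primes`) kills `S₂(Γ₀(N))`, then it kills the lattice `V_ℤ`
(`P(tMat) = 0` as an integer matrix) and hence, through the Kummer comparison
`κ_k : J₀(N)[p^k] ≃ (ℤ/p^k)^r`, all the `p`-power torsion of `J₀(N)(ℚ̄)`:

  `killer_tors : P(T) = 0 on S₂(Γ₀(N)) → ∀ k, ∀ x ∈ Tors N (p^k), P(TJ) x = 0`.

Also: `comparisonDataAt N hp` — THE comparison data of `S29lib` (the one behind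
`Z.compStatement`), as a definition, with `t = H.tMat (D.vzBasis N)` and `TJ = H.TJ N` by `rfl`.
-/
import Fermat.Agent.S35lib.New.FreeEval
import Fermat.Agent.S29lib.Z.Final

set_option autoImplicit false
set_option linter.unusedSectionVars false

noncomputable section

namespace Fermat.Agent.S35lib.New

open ModularCurve CongruenceSubgroup Fermat.Agent.S29lib Fermat.Agent.S16lib.LG
open scoped MatrixGroups

/-- `ℚ̄` -/
local notation "Qb" => AlgebraicClosure ℚ

variable (N : ℕ) [NeZero N]

/-! ### the comparison data of `S29lib`, as a definition -/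

/-- **the comparison data of `S29lib`** at level `N` and the prime `p`
(the witness of `Z.compStatement`). -/
def comparisonDataAt {p : ℕ} (hp : p.Prime) : ComparisonData N p :=
  letI : Algebra Qb ℂ := D.algebraQbC
  D.comparisonData hp (fun k => D.kInputs N (pow_pos hp.pos k))
    (fun k =>
      haveI : NeZero (p ^ k) := ⟨pow_ne_zero k hp.ne_zero⟩
      D.heckeInput_of_norm (H.heckeNormInput N (p ^ k)))

theorem comparisonDataAt_t {p : ℕ} (hp : p.Prime) :
    (comparisonDataAt N hp).t = H.tMat (D.vzBasis N) := rfl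

theorem comparisonDataAt_TJ {p : ℕ} (hp : p.Prime) :
    (comparisonDataAt N hp).TJ = H.TJ N := rfl

theorem comparisonDataAt_r {p : ℕ} (hp : p.Prime) :
    (comparisonDataAt N hp).r = K3.rank N := rfl

/-- every normalized eigenform has an eigen input for `comparisonDataAt` -/
theorem eigenInput_comparisonDataAt {p : ℕ} (hp : p.Prime)
    (g : CuspForm (Gamma0 N) 2) (hg : g.IsNormalizedEigenform) :
    Nonempty (EigenInput (comparisonDataAt N hp) g) :=
  ⟨P.eigenInputOf (comparisonDataAt N hp) (D.vzBasis N) (comparisonDataAt_t N hp) hg⟩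

/-! ### from forms to the lattice -/

section Lattice

variable {N} {ι : Type*} (e : ι → Nat.Primes) {r : ℕ}
  (b : Module.Basis (Fin r) ℤ ↥(VZ (Gamma0 N)))

/-- **a killer of `S₂(Γ₀(N))` kills the lattice**: `P(tMat) = 0`. -/
theorem lift_tMat_eq_zero (P : FreeRing ι)
    (hP : FreeRing.lift (fun i => H.heckeS2 N (e i)) P = 0) :
    FreeRing.lift (fun i => H.tMat b (e i)) P = 0 := by
  classical
  -- over `ℂ`, as linear maps
  have h1 : FreeRing.lift
      (fun i => Matrix.toLin' ((H.tMat b (e i)).map (Int.cast : ℤ → ℂ))) P = 0 := by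
    apply LinearMap.ext
    intro c
    apply (H.coordEquiv N b).injective
    rw [LinearMap.zero_apply, map_zero]
    have h2 := lift_intertwine_lin (H.coordEquiv N b).toLinearMap
      (fun i => Matrix.toLin' ((H.tMat b (e i)).map (Int.cast : ℤ → ℂ)))
      (fun i => (H.heckeS2 N (e i)).prodMap (H.heckeS2 N (e i)))
      (fun i v => H.coordEquiv_tMat N b (e i) v) P c
    rw [LinearEquiv.coe_coe] at h2
    rw [h2]
    set w := H.coordEquiv N b c
    -- the two components
    have hfst := lift_intertwine_lin (LinearMap.fst ℂ (CuspForm (Gamma0 N) 2) (CuspForm (Gamma0 N) 2))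
      (fun i => (H.heckeS2 N (e i)).prodMap (H.heckeS2 N (e i)))
      (fun i => H.heckeS2 N (e i)) (fun i v => rfl) P w
    have hsnd := lift_intertwine_lin (LinearMap.snd ℂ (CuspForm (Gamma0 N) 2) (CuspForm (Gamma0 N) 2))
      (fun i => (H.heckeS2 N (e i)).prodMap (H.heckeS2 N (e i)))
      (fun i => H.heckeS2 N (e i)) (fun i v => rfl) P w
    rw [hP, LinearMap.zero_apply] at hfst hsnd
    exact Prod.ext hfst hsnd
  -- as complex matrices
  have h3 : FreeRing.lift (fun i => (H.tMat b (e i)).map (Int.cast : ℤ → ℂ)) P = 0 := by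
    have h4 := lift_map (Matrix.toLinAlgEquiv' (R := ℂ) (n := Fin r)).toRingEquiv.toRingHom
      (fun i => (H.tMat b (e i)).map (Int.cast : ℤ → ℂ)) P
    have h5 : (fun i => (Matrix.toLinAlgEquiv' (R := ℂ) (n := Fin r)).toRingEquiv.toRingHom
        ((H.tMat b (e i)).map (Int.cast : ℤ → ℂ))) =
        fun i => Matrix.toLin' ((H.tMat b (e i)).map (Int.cast : ℤ → ℂ)) := rfl
    rw [h5, h1] at h4
    exact (Matrix.toLinAlgEquiv' (R := ℂ) (n := Fin r)).injective (h4.trans (map_zero _).symm)
  -- as integer matrices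
  have h6 := lift_matrix_map (Int.castRingHom ℂ) (fun i => H.tMat b (e i)) P
  have h7 : (fun i => (H.tMat b (e i)).map (Int.castRingHom ℂ)) =
      fun i => (H.tMat b (e i)).map (Int.cast : ℤ → ℂ) := rfl
  rw [h7, h3] at h6
  ext i j
  have h8 := congrFun (congrFun h6 i) j
  rw [Matrix.map_apply, Matrix.zero_apply] at h8
  rw [Matrix.zero_apply]
  have h9 : (((FreeRing.lift (fun i => H.tMat b (e i)) P i j : ℤ)) : ℂ) = 0 := h8
  exact_mod_cast h9

end Lattice

/-! ### from the lattice to the torsion of the Jacobian -/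

section Torsion

variable {N} {p : ℕ} (C : ComparisonData N p) {ι : Type*} (e : ι → Nat.Primes)

/-- the Hecke operator `TJ ℓ` restricted to the `n`-torsion -/
def TJTors (n : ℕ) (ℓ : Nat.Primes) : AddMonoid.End ↥(Tors N n) :=
  ((C.TJ ℓ).toIntLinearMap.restrict
    (p := Tors N n) (q := Tors N n) (fun _ hx => map_mem_Tors (C.TJ ℓ) hx)).toAddMonoidHom

@[simp] theorem coe_TJTors (n : ℕ) (ℓ : Nat.Primes) (x : ↥(Tors N n)) :
    ((TJTors C n ℓ x : ↥(Tors N n)) : JZero N) = C.TJ ℓ x := rfl

/-- `P(TJ)` on a torsion point is `P` of the restricted operators -/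
theorem coe_lift_TJTors (n : ℕ) (P : FreeRing ι) (x : ↥(Tors N n)) :
    ((FreeRing.lift (fun i => TJTors C n (e i)) P x : ↥(Tors N n)) : JZero N) =
      FreeRing.lift (R := AddMonoid.End (JZero N)) (fun i => C.TJ (e i)) P x :=
  lift_intertwine (Tors N n).subtype.toAddMonoidHom (fun i => TJTors C n (e i))
    (fun i => C.TJ (e i)) (fun _ _ => rfl) P x

/-- the torsion is stable under `P(TJ)` -/
theorem lift_TJ_mem_Tors (n : ℕ) (P : FreeRing ι) {x : JZero N} (hx : x ∈ Tors N n) :
    FreeRing.lift (R := AddMonoid.End (JZero N)) (fun i => C.TJ (e i)) P x ∈ Tors N n := by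
  rw [← coe_lift_TJTors C e n P ⟨x, hx⟩]
  exact Subtype.property _

/-- **the Kummer comparison intertwines `P(TJ)` with `P(t)`** -/
theorem kappa_lift_TJ (k : ℕ) (P : FreeRing ι) (x : ↥(Tors N (p ^ k))) :
    C.κ k (FreeRing.lift (fun i => TJTors C (p ^ k) (e i)) P x) =
      ((FreeRing.lift (fun i => C.t (e i)) P).map (Int.cast : ℤ → ZMod (p ^ k))).mulVec
        (C.κ k x) := by
  have h := lift_intertwine_mulVec (C.κ k).toAddMonoidHom (fun i => TJTors C (p ^ k) (e i))
    (fun i => (C.t (e i)).map (Int.cast : ℤ → ZMod (p ^ k)))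
    (fun i v => C.κ_hecke k (e i) v) P x
  have h2 := lift_matrix_map (Int.castRingHom (ZMod (p ^ k))) (fun i => C.t (e i)) P
  have h3 : (fun i => (C.t (e i)).map (Int.castRingHom (ZMod (p ^ k)))) =
      fun i => (C.t (e i)).map (Int.cast : ℤ → ZMod (p ^ k)) := rfl
  rw [h3] at h2
  rw [← h2] at h
  exact h

/-- if `P(t) = 0` on the lattice then `P(TJ)` kills the `p`-power torsion -/
theorem lift_TJ_eq_zero_of_lift_t (P : FreeRing ι)
    (hP : FreeRing.lift (fun i => C.t (e i)) P = 0) (k : ℕ) {x : JZero N}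
    (hx : x ∈ Tors N (p ^ k)) :
    FreeRing.lift (R := AddMonoid.End (JZero N)) (fun i => C.TJ (e i)) P x = 0 := by
  rw [← coe_lift_TJTors C e (p ^ k) P ⟨x, hx⟩]
  have h := kappa_lift_TJ C e k P ⟨x, hx⟩
  rw [hP, Matrix.map_zero _ (Int.cast_zero), Matrix.zero_mulVec] at h
  have h2 : FreeRing.lift (fun i => TJTors C (p ^ k) (e i)) P ⟨x, hx⟩ = 0 :=
    (C.κ k).injective (h.trans (map_zero _).symm)
  rw [h2]
  rfl

end Torsion

/-! ### the statement of R2.2 -/

variable {N} {ι : Type*} (e : ι → Nat.Primes)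

/-- **R2.2 (killer on the Jacobian).**  A non-commutative integer polynomial in the Hecke
operators which kills `S₂(Γ₀(N))` kills the `p`-power torsion of `J₀(N)(ℚ̄)`. -/
theorem killer_tors (P : FreeRing ι) (hP : FreeRing.lift (fun i => H.heckeS2 N (e i)) P = 0)
    {p : ℕ} (hp : p.Prime) (k : ℕ) {x : JZero N} (hx : x ∈ Tors N (p ^ k)) :
    FreeRing.lift (R := AddMonoid.End (JZero N)) (fun i => H.TJ N (e i)) P x = 0 :=
  lift_TJ_eq_zero_of_lift_t (comparisonDataAt N hp) e P
    (lift_tMat_eq_zero e (D.vzBasis N) P hP) k hx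

/-- the same for ANY family of additive endomorphisms agreeing with the prelude's
`heckeOperatorBar N ℓ` (`ℓ ∤ N`) -/
theorem killer_tors_of_good (he : ∀ i, ¬ ((e i : Nat.Primes) : ℕ) ∣ N)
    (T : ι → AddMonoid.End (JZero N)) (hT : ∀ i x, T i x = heckeOperatorBar N (e i) x)
    (P : FreeRing ι) (hP : FreeRing.lift (fun i => H.heckeS2 N (e i)) P = 0)
    {p : ℕ} (hp : p.Prime) (k : ℕ) {x : JZero N} (hx : x ∈ Tors N (p ^ k)) :
    FreeRing.lift T P x = 0 := by
  have hTe : T = fun i => H.TJ N (e i) := by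
    funext i
    apply AddMonoidHom.ext
    intro y
    exact (hT i y).trans (H.TJ_good N (e i) (he i) y).symm
  rw [hTe]
  exact killer_tors e P hP hp k hx

/-- the same with the prelude's operators in `Module.End ℤ (JZero N)` -/
theorem killer_tors_bar (he : ∀ i, ¬ ((e i : Nat.Primes) : ℕ) ∣ N)
    (P : FreeRing ι) (hP : FreeRing.lift (fun i => H.heckeS2 N (e i)) P = 0)
    {p : ℕ} (hp : p.Prime) (k : ℕ) {x : JZero N} (hx : x ∈ Tors N (p ^ k)) :
    FreeRing.lift (fun i => heckeOperatorBar N (e i)) P x = 0 := by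
  have h := killer_tors_of_good e he
    (fun i => (heckeOperatorBar N (e i)).toAddMonoidHom) (fun _ _ => rfl) P hP hp k hx
  have h2 := lift_map (addMonoidEndRingEquivInt (JZero N)).symm.toRingHom
    (fun i => heckeOperatorBar N (e i)) P
  have h3 : FreeRing.lift (fun i => heckeOperatorBar N (e i)) P x =
      (addMonoidEndRingEquivInt (JZero N)).symm.toRingHom
        (FreeRing.lift (fun i => heckeOperatorBar N (e i)) P) x := rfl
  rw [h3, h2]
  exact h

end Fermat.Agent.S35lib.New
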