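/-
S35lib / New / WqHecke  (helper4)   — brick R2.4 of route FN

**The Atkin–Lehner involution `w_q` of `J₀(M q)` commutes with the Hecke operators `T_ℓ`, `ℓ ∤ M q`,
on torsion classes.**  Algebraic proof:

* the Atkin–Lehner involution `W''` of level `(M q) ℓ = (M ℓ) q` restricts along BOTH degeneracy
  maps `α_ℓ, β_ℓ : FBar (M q) → FBar (M q ℓ)` to `W = w_q` of level `M q` (check on the generators
  `j(t^d)`);
* hence `N_{α_ℓ}(β_ℓ (W f)) = N_{α_ℓ}(W'' (β_ℓ f)) = W (N_{α_ℓ}(β_ℓ f))` (the norm commutes with an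
  automorphism of the top field preserving the bottom field);
* Kummer representatives determine torsion classes.
-/
import Fermat.Agent.LSb.Val.Wq
import Fermat.Agent.S29lib.D.AsmHeckeNorm

set_option autoImplicit false
set_option linter.unusedSectionVars false
set_option linter.unusedVariables false
set_option linter.style.haveILetI false

noncomputable section

namespace Fermat.Agent.S35lib.New

open AlgebraicCurve ModularCurve Fermat.Agent.S18lib Fermat.Agent.LSb Fermat.Agent.S29lib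

local notation "Qb" => AlgebraicClosure ℚ

/-! ### the cast between `FBar ((M q) ℓ)` and `FBar ((M ℓ) q)` -/

section Cast

variable (M q ℓ : ℕ)

theorem wqHecke_level_eq : M * q * ℓ = M * ℓ * q := Nat.mul_right_comm M q ℓ

/-- the two levels `(M q) ℓ` and `(M ℓ) q` give the same subfield of `ℚ̄((t))` -/
def wqHecke_cast : FBar (M * q * ℓ) ≃ₐ[Qb] FBar (M * ℓ * q) :=
  IntermediateField.equivOfEq (by rw [wqHecke_level_eq])

theorem coe_wqHecke_cast (x : FBar (M * q * ℓ)) :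
    ((wqHecke_cast M q ℓ x : FBar (M * ℓ * q)) : LaurentSeries Qb) = (x : LaurentSeries Qb) := by
  unfold wqHecke_cast IntermediateField.equivOfEq
  rw [Subalgebra.equivOfEq_apply]

theorem coe_wqHecke_cast_symm (x : FBar (M * ℓ * q)) :
    (((wqHecke_cast M q ℓ).symm x : FBar (M * q * ℓ)) : LaurentSeries Qb) =
      (x : LaurentSeries Qb) := by
  unfold wqHecke_cast
  rw [IntermediateField.equivOfEq_symm]
  unfold IntermediateField.equivOfEq
  rw [Subalgebra.equivOfEq_apply]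

theorem wqHecke_cast_jd [NeZero (M * q * ℓ)] [NeZero (M * ℓ * q)] (d : ℕ) [NeZero d]
    (hd : d ∣ M * q * ℓ) (hd' : d ∣ M * ℓ * q) :
    wqHecke_cast M q ℓ (Val.jd (M * q * ℓ) d hd) = Val.jd (M * ℓ * q) d hd' := by
  apply Subtype.ext
  rw [coe_wqHecke_cast]
  rfl

end Cast

/-! ### the Atkin–Lehner involution of level `(M q) ℓ` and the degeneracy maps -/

section WPrime

variable (M q ℓ : ℕ) [NeZero M] [NeZero q] [NeZero ℓ] (hq : q.Prime) (hqM : ¬ q ∣ M)
  (hqMℓ : ¬ q ∣ M * ℓ)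

/-- the Atkin–Lehner involution at `q` of level `(M q) ℓ` -/
def wqHecke_W : FBar (M * q * ℓ) ≃ₐ[Qb] FBar (M * q * ℓ) :=
  (wqHecke_cast M q ℓ).trans ((Val.wq (M * ℓ) q hq hqMℓ).trans (wqHecke_cast M q ℓ).symm)

theorem wqHecke_W_apply (x : FBar (M * q * ℓ)) :
    wqHecke_W M q ℓ hq hqMℓ x =
      (wqHecke_cast M q ℓ).symm (Val.wq (M * ℓ) q hq hqMℓ (wqHecke_cast M q ℓ x)) := rfl

/-- `W''` on the generators `j(t^d)`, `d ∣ M ℓ` -/
theorem wqHecke_W_jd (d : ℕ) [NeZero d] (hd : d ∣ M * ℓ) (h1 : d ∣ M * q * ℓ)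
    (h2 : d * q ∣ M * q * ℓ) :
    wqHecke_W M q ℓ hq hqMℓ (Val.jd (M * q * ℓ) d h1) = Val.jd (M * q * ℓ) (d * q) h2 := by
  rw [wqHecke_W_apply, wqHecke_cast_jd M q ℓ d h1 (hd.trans (Dvd.intro _ rfl)),
    Val.wq_jd (M * ℓ) q hq hqMℓ d hd]
  apply Subtype.ext
  rw [coe_wqHecke_cast_symm]
  rfl

/-- `W''` on the generators `j(t^(d q))`, `d ∣ M ℓ` -/
theorem wqHecke_W_jd_mul (d : ℕ) [NeZero d] (hd : d ∣ M * ℓ) (h1 : d ∣ M * q * ℓ)
    (h2 : d * q ∣ M * q * ℓ) :
    wqHecke_W M q ℓ hq hqMℓ (Val.jd (M * q * ℓ) (d * q) h2) = Val.jd (M * q * ℓ) d h1 := by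
  rw [wqHecke_W_apply, wqHecke_cast_jd M q ℓ (d * q) h2 (Nat.mul_dvd_mul_right hd q),
    Val.wq_jd_mul (M * ℓ) q hq hqMℓ d hd]
  apply Subtype.ext
  rw [coe_wqHecke_cast_symm]
  rfl

include hqM in
/-- **`W'' ∘ α_ℓ = α_ℓ ∘ W`** -/
theorem wqHecke_W_alpha (f : FBar (M * q)) :
    wqHecke_W M q ℓ hq hqMℓ (heckeAlphaBar Qb (M * q) ℓ f) =
      heckeAlphaBar Qb (M * q) ℓ (Val.wq M q hq hqM f) := by
  have h : ((wqHecke_W M q ℓ hq hqMℓ : FBar (M * q * ℓ) →+* FBar (M * q * ℓ))).comp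
      (heckeAlphaBar Qb (M * q) ℓ : FBar (M * q) →+* FBar (M * q * ℓ)) =
      ((heckeAlphaBar Qb (M * q) ℓ : FBar (M * q) →+* FBar (M * q * ℓ))).comp
        (Val.wq M q hq hqM : FBar (M * q) →+* FBar (M * q)) := by
    apply Val.ringHom_ext_FBar (L := Qb) (M * q)
    · intro a
      simp only [RingHom.comp_apply, RingHom.coe_coe, AlgHom.commutes, AlgEquiv.commutes]
    · intro d _ hd
      simp only [RingHom.comp_apply, RingHom.coe_coe]
      rcases Val.dvd_mul_prime_cases hq hd with hdM | ⟨d', rfl, hdM⟩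
      · have e1 := Val.alpha_jd (M * q) ℓ d hd
        have e2 := Val.wq_jd M q hq hqM d hdM
        have e3 := Val.alpha_jd (M * q) ℓ (d * q) (Nat.mul_dvd_mul_right hdM q)
        have e4 := wqHecke_W_jd M q ℓ hq hqMℓ d (hdM.trans (Dvd.intro _ rfl))
          (hd.trans (Dvd.intro _ rfl)) ((Nat.mul_dvd_mul_right hdM q).trans (Dvd.intro _ rfl))
        rw [e1, e4, e2, e3]
      · haveI : NeZero d' := ⟨fun h0 => by
          subst h0
          exact (NeZero.ne (0 * q)) (zero_mul q)⟩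
        have e1 := Val.alpha_jd (M * q) ℓ (d' * q) hd
        have e2 := Val.wq_jd_mul M q hq hqM d' hdM
        have e3 := Val.alpha_jd (M * q) ℓ d' (hdM.trans (Dvd.intro _ rfl))
        have e4 := wqHecke_W_jd_mul M q ℓ hq hqMℓ d' (hdM.trans (Dvd.intro _ rfl))
          ((hdM.trans (Dvd.intro _ rfl)).trans (Dvd.intro _ rfl)) (hd.trans (Dvd.intro _ rfl))
        rw [e1, e4, e2, e3]
  exact congrArg (fun φ : FBar (M * q) →+* FBar (M * q * ℓ) => φ f) h

include hqM in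
/-- **`W'' ∘ β_ℓ = β_ℓ ∘ W`** -/
theorem wqHecke_W_beta (f : FBar (M * q)) :
    wqHecke_W M q ℓ hq hqMℓ (heckeBetaBar Qb (M * q) ℓ f) =
      heckeBetaBar Qb (M * q) ℓ (Val.wq M q hq hqM f) := by
  have h : ((wqHecke_W M q ℓ hq hqMℓ : FBar (M * q * ℓ) →+* FBar (M * q * ℓ))).comp
      (heckeBetaBar Qb (M * q) ℓ : FBar (M * q) →+* FBar (M * q * ℓ)) =
      ((heckeBetaBar Qb (M * q) ℓ : FBar (M * q) →+* FBar (M * q * ℓ))).comp
        (Val.wq M q hq hqM : FBar (M * q) →+* FBar (M * q)) := by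
    apply Val.ringHom_ext_FBar (L := Qb) (M * q)
    · intro a
      simp only [RingHom.comp_apply, RingHom.coe_coe, AlgHom.commutes, AlgEquiv.commutes]
    · intro d _ hd
      simp only [RingHom.comp_apply, RingHom.coe_coe]
      rcases Val.dvd_mul_prime_cases hq hd with hdM | ⟨d', rfl, hdM⟩
      · -- `β_ℓ j_d = j_{d ℓ}`, `W'' j_{d ℓ} = j_{d ℓ q}`, `W j_d = j_{d q}`, `β_ℓ j_{d q} = j_{d q ℓ}`
        have e1 := Val.beta_jd (M * q) ℓ d hd
        have e2 := Val.wq_jd M q hq hqM d hdM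
        have e3 := Val.beta_jd (M * q) ℓ (d * q) (Nat.mul_dvd_mul_right hdM q)
        have e4 := wqHecke_W_jd M q ℓ hq hqMℓ (d * ℓ) (Nat.mul_dvd_mul_right hdM ℓ)
          (Nat.mul_dvd_mul_right hd ℓ)
          (by rw [Nat.mul_right_comm d ℓ q]
              exact Nat.mul_dvd_mul_right (Nat.mul_dvd_mul_right hdM q) ℓ)
        rw [e1, e4, e2, e3]
        apply Subtype.ext
        show coeffEmb Qb (qExpand ℚ (d * ℓ * q) jq) = coeffEmb Qb (qExpand ℚ (d * q * ℓ) jq)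
        rw [Val.qExpand_congr_nat (Nat.mul_right_comm d ℓ q)]
      · haveI : NeZero d' := ⟨fun h0 => by
          subst h0
          exact (NeZero.ne (0 * q)) (zero_mul q)⟩
        have e1 := Val.beta_jd (M * q) ℓ (d' * q) hd
        have e2 := Val.wq_jd_mul M q hq hqM d' hdM
        have e3 := Val.beta_jd (M * q) ℓ d' (hdM.trans (Dvd.intro _ rfl))
        have e4 := wqHecke_W_jd_mul M q ℓ hq hqMℓ (d' * ℓ) (Nat.mul_dvd_mul_right hdM ℓ)
          (Nat.mul_dvd_mul_right (hdM.trans (Dvd.intro _ rfl)) ℓ)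
          (by rw [Nat.mul_right_comm d' ℓ q]
              exact Nat.mul_dvd_mul_right hd ℓ)
        rw [e1, e2, e3, ← e4]
        congr 1
        apply Subtype.ext
        show coeffEmb Qb (qExpand ℚ (d' * q * ℓ) jq) = coeffEmb Qb (qExpand ℚ (d' * ℓ * q) jq)
        rw [Val.qExpand_congr_nat (Nat.mul_right_comm d' q ℓ)]
  exact congrArg (fun φ : FBar (M * q) →+* FBar (M * q * ℓ) => φ f) h

end WPrime

/-! ### norms and automorphisms -/

section Norm

variable {K F F' : Type*} [Field K] [Field F] [Field F'] [Algebra K F] [Algebra K F']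

/-- the norm along `ψ` commutes with a pair of automorphisms compatible with `ψ` -/
theorem wqHecke_normAlong_comm (ψ : F →ₐ[K] F') (w : F ≃ₐ[K] F) (W : F' ≃ₐ[K] F')
    (h : ∀ f : F, W (ψ f) = ψ (w f)) (y : F') :
    D.normAlong ψ (W y) = w (D.normAlong ψ y) := by
  letI := algebraAlong ψ
  show Algebra.norm F (W y) = w (Algebra.norm F y)
  have he : RingHom.comp (algebraMap F F') ((w : F ≃+* F) : F →+* F) =
      RingHom.comp ((W : F' ≃+* F') : F' →+* F') (algebraMap F F') := by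
    ext f
    exact (h f).symm
  have key := Algebra.norm_eq_of_equiv_equiv (w : F ≃+* F) (W : F' ≃+* F') he y
  have h2 : (w : F ≃+* F) (Algebra.norm F y) = Algebra.norm F ((W : F' ≃+* F') y) := by
    rw [key, RingEquiv.apply_symm_apply]
  exact h2.symm

end Norm

/-! ### Kummer representatives and automorphisms -/

section Kummer

variable {K F : Type*} [Field K] [Field F] [Algebra K F]

/-- Kummer representatives are transported by semilinear automorphisms -/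
theorem wqHecke_kummerRel_smul (g : SemilinearAut K F) {n : ℕ} {x : Pic0 K F} {f : F}
    (h : D.KummerRel n x f) : D.KummerRel n (g • x) (g • f) := by
  obtain ⟨hf, E, rfl, hE⟩ := h
  refine ⟨?_, SemilinearAut.degZeroSMulHom g E, (SemilinearAut.pic0_smul_mk g E).symm, fun P => ?_⟩
  · rw [SemilinearAut.smul_def]
    exact (map_ne_zero _).2 hf
  · rw [SemilinearAut.coe_degZeroSMulHom, SemilinearAut.divisor_smul_apply, hE (g⁻¹ • P)]
    have h1 := SemilinearAut.ord_smul g (g⁻¹ • P) f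
    rw [smul_inv_smul] at h1
    exact h1.symm

/-- a torsion class is determined by a Kummer representative -/
theorem wqHecke_kummerRel_unique {n : ℕ} (hn : 0 < n) {x y : Pic0 K F} {f : F}
    (hx : D.KummerRel n x f) (hy : D.KummerRel n y f) : x = y := by
  obtain ⟨-, E, rfl, hE⟩ := hx
  obtain ⟨-, E', rfl, hE'⟩ := hy
  have hnZ : (n : ℤ) ≠ 0 := by exact_mod_cast hn.ne'
  have : E = E' := by
    apply Subtype.ext
    ext P
    exact mul_left_cancel₀ hnZ ((hE P).trans (hE' P).symm)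
  rw [this]

end Kummer

/-! ### the main theorem -/

section Main

variable (M q : ℕ) [NeZero M] [NeZero q] (hq : q.Prime) (hqM : ¬ q ∣ M)

/-- **the action of `w_q` on `J₀(M q)(ℚ̄) = Pic⁰(FBar (M q))`** -/
def wqJ : SemilinearAut Qb (FBar (M * q)) := SemilinearAut.ofAlgAut (Val.wq M q hq hqM)

theorem wqJ_smul (f : FBar (M * q)) : wqJ M q hq hqM • f = Val.wq M q hq hqM f := rfl

/-- `N_{α_ℓ}(β_ℓ (W f)) = W (N_{α_ℓ}(β_ℓ f))` -/
theorem wqHecke_normStd_wq (ℓ : ℕ) [NeZero ℓ] (hqMℓ : ¬ q ∣ M * ℓ) (f : FBar (M * q)) :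
    D.normStd (M * q) ℓ (Val.wq M q hq hqM f) = Val.wq M q hq hqM (D.normStd (M * q) ℓ f) := by
  unfold D.normStd
  rw [← wqHecke_W_beta M q ℓ hq hqM hqMℓ f]
  exact wqHecke_normAlong_comm (heckeAlphaBar Qb (M * q) ℓ) (Val.wq M q hq hqM)
    (wqHecke_W M q ℓ hq hqMℓ) (fun f => wqHecke_W_alpha M q ℓ hq hqM hqMℓ f) _

include hq hqM in
theorem wqHecke_not_dvd {ℓ : ℕ} (hℓ : ℓ.Prime) (hℓN : ¬ ℓ ∣ M * q) : ¬ q ∣ M * ℓ := by
  intro h
  rcases (Nat.Prime.dvd_mul hq).1 h with h | h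
  · exact hqM h
  · have : q = ℓ := (Nat.prime_dvd_prime_iff_eq hq hℓ).1 h
    subst this
    exact hℓN (Dvd.intro_left M rfl)

/-- **`w_q` commutes with `T_ℓ`, `ℓ ∤ M q`, on torsion classes of `J₀(M q)`** -/
theorem TJ_wq_comm [NeZero (M * q)] (ℓ : Nat.Primes) (hℓN : ¬ (ℓ : ℕ) ∣ M * q) {n : ℕ}
    (hn : 0 < n) {x : JZero (M * q)} (hx : n • x = 0) :
    heckeOperatorBar (M * q) ℓ (wqJ M q hq hqM • x) =
      wqJ M q hq hqM • heckeOperatorBar (M * q) ℓ x := by
  haveI : NeZero (ℓ : ℕ) := ⟨ℓ.2.ne_zero⟩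
  have hx' : (n : ℤ) • x = 0 := by rw [natCast_zsmul]; exact hx
  obtain ⟨f, hf⟩ := D.exists_kummerRel hx'
  have h1 : D.KummerRel n (wqJ M q hq hqM • x) (Val.wq M q hq hqM f) :=
    wqHecke_kummerRel_smul (wqJ M q hq hqM) hf
  have h2 := D.kummerRel_TJ (M * q) ℓ h1
  have h3 := D.kummerRel_TJ (M * q) ℓ hf
  have h4 : D.KummerRel n (wqJ M q hq hqM • H.TJ (M * q) ℓ x)
      (Val.wq M q hq hqM (D.normTJ (M * q) ℓ f)) :=
    wqHecke_kummerRel_smul (wqJ M q hq hqM) h3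
  rw [D.normTJ_of_not_dvd (M * q) hℓN] at h2 h4
  rw [wqHecke_normStd_wq M q hq hqM (ℓ : ℕ) (wqHecke_not_dvd M q hq hqM ℓ.2 hℓN) f] at h2
  have h5 := wqHecke_kummerRel_unique hn h2 h4
  rw [H.TJ_good (M * q) ℓ hℓN, H.TJ_good (M * q) ℓ hℓN] at h5
  exact h5

end Main

end Fermat.Agent.S35lib.New
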