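/-
S35lib / New / FreeBridge  (helper5).   Mathlib only.

Bridge between the two models of "non-commutative integer polynomial in the Hecke operators" used
along route FN of S35: `FreeAlgebra ℤ ι` (helper3's `Killer`, lead's `KillInterface`) and
`FreeRing ι` (helper6's `FreeEval`/`KillerJ`).
-/
import Mathlib

set_option autoImplicit false

namespace Fermat.Agent.S35lib.New

variable {ι : Type*}

/-- the comparison map `FreeAlgebra ℤ ι → FreeRing ι` -/
noncomputable def toFreeRing : FreeAlgebra ℤ ι →ₐ[ℤ] FreeRing ι :=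
  FreeAlgebra.lift ℤ (FreeRing.of : ι → FreeRing ι)

theorem toFreeRing_ι (i : ι) : toFreeRing (FreeAlgebra.ι ℤ i) = FreeRing.of i := by
  unfold toFreeRing
  rw [FreeAlgebra.lift_ι_apply]

/-- **evaluation of `toFreeRing P` in the sense of `FreeRing` = evaluation of `P` in the sense of
`FreeAlgebra ℤ`**, for an arbitrary ring target with an arbitrary `ℤ`-algebra structure (all of them
coincide). -/
theorem lift_toFreeRing {R : Type*} [Ring R] [Algebra ℤ R] (T : ι → R) (P : FreeAlgebra ℤ ι) :
    FreeRing.lift T (toFreeRing P) = FreeAlgebra.lift ℤ T P := by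
  let Φ : FreeAlgebra ℤ ι →ₐ[ℤ] R :=
    { (FreeRing.lift T : FreeRing ι →+* R).comp (toFreeRing : FreeAlgebra ℤ ι →ₐ[ℤ] FreeRing ι) with
      commutes' := fun n => by
        show FreeRing.lift T (toFreeRing (algebraMap ℤ (FreeAlgebra ℤ ι) n)) = algebraMap ℤ R n
        rw [AlgHom.commutes, eq_intCast (algebraMap ℤ (FreeRing ι)) n, map_intCast,
          eq_intCast (algebraMap ℤ R) n] }
  have h : Φ = FreeAlgebra.lift ℤ T := by
    apply FreeAlgebra.hom_ext
    funext i
    show FreeRing.lift T (toFreeRing (FreeAlgebra.ι ℤ i)) = FreeAlgebra.lift ℤ T (FreeAlgebra.ι ℤ i)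
    rw [toFreeRing_ι, FreeRing.lift_of, FreeAlgebra.lift_ι_apply]
  exact DFunLike.congr_fun h P

end Fermat.Agent.S35lib.New
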