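/-
S35lib / New / Killer  (helper3)  -- brick R2.1 of route FN (S35).

**The Hecke killer.**  Let `g` be a newform of level `M' * q`.  Then there is a noncommutative
polynomial `P` with INTEGER coefficients in the variables `x_ℓ`, `ℓ ∤ M' q`, such that
`P(a_ℓ(g)) ≠ 0` in `ℂ` but `P(T_ℓ) = 0` on `S₂(Γ₀(M'))`.

`P` lives in `FreeAlgebra ℤ ι` and is evaluated with `FreeAlgebra.lift ℤ`, which needs no
commutativity of the target (endomorphism rings, matrix rings).

Proof: otherwise the integral relations among the `P(T_ℓ)` all hold for the numbers `a_ℓ`.  Thanks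
to the integral structure of the Hecke operators (integer matrices `H.tMat` on the lattice `V_ℤ`,
`H.coordEquiv_tMat`) the same is true for the complex relations (`killer_descent`, linear algebra
over `ℚ ⊂ ℂ`), so the `ℂ`-algebra character `T_ℓ ↦ a_ℓ` of the (commutative) algebra generated by
the `T_ℓ` exists and has an eigenvector (`Helper8.exists_eigenvector_ker_le`); packaging
(S41lib/NEW) turns it into a normalized eigenform of level `M'` with the good eigenvalues of `g`,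
contradicting the newness of `g`.
-/
import Mathlib
import Fermat.Agent.S29lib.H.Eigen
import Fermat.Agent.S41lib.NEW.Packaging
import Fermat.Agent.Helper8.EigenLemma
import Fermat.Prelude.Def_CuspForm_Newforms

set_option autoImplicit false
set_option linter.unusedSectionVars false
set_option linter.unusedVariables false

noncomputable section

namespace Fermat.Agent.S35lib.New

open CuspForm ModularFormClass CongruenceSubgroup Module
open Fermat.Agent.S29lib
open Fermat.Agent.S16lib.LG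

/-! ### Generic linear algebra -/


/-- descent of linear relations from `ℤ` to `ℂ` -/
theorem killer_descent {Λ Γ : Type*} (S : Finset Λ) (v : Λ → Γ → ℤ) (w : Λ → ℂ)
    (h : ∀ m : Λ → ℤ, (∀ γ, ∑ s ∈ S, m s * v s γ = 0) → ∑ s ∈ S, (m s : ℂ) * w s = 0)
    (c : Λ → ℂ) (hc : ∀ γ, ∑ s ∈ S, c s * (v s γ : ℂ) = 0) :
    ∑ s ∈ S, c s * w s = 0 := by
  classical
  let B : Basis (Module.Free.ChooseBasisIndex ℚ ℂ) ℚ ℂ := Module.Free.chooseBasis ℚ ℂ
  -- Step 1: rational relations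
  have h1 : ∀ j γ, ∑ s ∈ S, B.coord j (c s) * (v s γ : ℚ) = 0 := by
    intro j γ
    have := congrArg (B.coord j) (hc γ)
    rw [map_sum, map_zero] at this
    rw [← this]
    refine Finset.sum_congr rfl fun s _ => ?_
    have h2 : c s * (v s γ : ℂ) = (v s γ : ℚ) • c s := by
      rw [mul_comm]
      simp [Algebra.smul_def]
    rw [h2, map_smul, smul_eq_mul, mul_comm]
  -- Step 2: the relation for the coordinates
  have h2 : ∀ j, ∑ s ∈ S, ((B.coord j (c s) : ℚ) : ℂ) * w s = 0 := by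
    intro j
    obtain ⟨d, hd⟩ := IsLocalization.exist_integer_multiples (nonZeroDivisors ℤ) S
      (fun s => B.coord j (c s))
    have hd' : ∀ s, ∃ n : ℤ, s ∈ S → (n : ℚ) = ((d : ℤ) : ℚ) * B.coord j (c s) := by
      intro s
      by_cases hs : s ∈ S
      · obtain ⟨n, hn⟩ := hd s hs
        refine ⟨n, fun _ => ?_⟩
        simpa [Algebra.smul_def] using hn
      · exact ⟨0, fun h => absurd h hs⟩
    choose m hm using hd'
    have hrel : ∀ γ, ∑ s ∈ S, m s * v s γ = 0 := by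
      intro γ
      have h3 : ((∑ s ∈ S, m s * v s γ : ℤ) : ℚ) = 0 := by
        push_cast
        rw [Finset.sum_congr rfl fun s hs => by rw [hm s hs, mul_assoc], ← Finset.mul_sum,
          h1 j γ, mul_zero]
      exact_mod_cast h3
    have h4 := h m hrel
    have hd0 : ((d : ℤ) : ℂ) ≠ 0 := by
      have := nonZeroDivisors.ne_zero d.2
      exact_mod_cast this
    have h5 : ∑ s ∈ S, (m s : ℂ) * w s =
        ((d : ℤ) : ℂ) * ∑ s ∈ S, ((B.coord j (c s) : ℚ) : ℂ) * w s := by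
      rw [Finset.mul_sum]
      refine Finset.sum_congr rfl fun s hs => ?_
      have : ((m s : ℤ) : ℂ) = (((m s : ℤ) : ℚ) : ℂ) := by push_cast; rfl
      rw [this, hm s hs]
      push_cast
      ring
    rw [h5] at h4
    exact (mul_eq_zero.mp h4).resolve_left hd0
  -- Step 3: expand in the basis
  let J₀ : Finset (Module.Free.ChooseBasisIndex ℚ ℂ) := S.biUnion fun s => (B.repr (c s)).support
  have h3 : ∀ s ∈ S, c s = ∑ j ∈ J₀, ((B.coord j (c s) : ℚ) : ℂ) * B j := by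
    intro s hs
    have hx := B.linearCombination_repr (c s)
    rw [Finsupp.linearCombination_apply, Finsupp.sum_of_support_subset (s := J₀)] at hx
    · conv_lhs => rw [← hx]
      refine Finset.sum_congr rfl fun j _ => ?_
      rw [Basis.coord_apply, Algebra.smul_def]
      rfl
    · exact Finset.subset_biUnion_of_mem (fun s => (B.repr (c s)).support) hs
    · intro j _
      exact zero_smul _ _
  calc ∑ s ∈ S, c s * w s
      = ∑ s ∈ S, (∑ j ∈ J₀, ((B.coord j (c s) : ℚ) : ℂ) * B j) * w s :=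
        Finset.sum_congr rfl fun s hs => by rw [← h3 s hs]
    _ = ∑ j ∈ J₀, B j * ∑ s ∈ S, ((B.coord j (c s) : ℚ) : ℂ) * w s := by
        simp_rw [Finset.sum_mul, Finset.mul_sum]
        rw [Finset.sum_comm]
        refine Finset.sum_congr rfl fun j _ => Finset.sum_congr rfl fun s _ => ?_
        ring
    _ = 0 := by
        refine Finset.sum_eq_zero fun j _ => ?_
        rw [h2 j, mul_zero]
/-- base change of the free algebra from `ℤ` to `ℂ` -/
noncomputable def killerBeta (ι : Type*) : FreeAlgebra ℤ ι →ₐ[ℤ] FreeAlgebra ℂ ι :=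
  FreeAlgebra.lift ℤ (FreeAlgebra.ι ℂ : ι → FreeAlgebra ℂ ι)

theorem killerBeta_ι {ι : Type*} (i : ι) : killerBeta ι (FreeAlgebra.ι ℤ i) = FreeAlgebra.ι ℂ i := by
  rw [killerBeta, FreeAlgebra.lift_ι_apply]

theorem killer_span_top (ι : Type*) :
    Submodule.span ℂ (Set.range (killerBeta ι)) = ⊤ := by
  rw [eq_top_iff]
  rintro P -
  induction P using FreeAlgebra.induction with
  | grade0 c =>
    have : algebraMap ℂ (FreeAlgebra ℂ ι) c = c • killerBeta ι 1 := by
      rw [map_one, Algebra.smul_def, mul_one]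
    rw [this]
    exact Submodule.smul_mem _ _ (Submodule.subset_span ⟨1, rfl⟩)
  | grade1 i =>
    exact Submodule.subset_span ⟨FreeAlgebra.ι ℤ i, killerBeta_ι i⟩
  | mul x y hx hy =>
    have hmul := Submodule.mul_mem_mul hx hy
    rw [Submodule.span_mul_span] at hmul
    refine Submodule.span_mono ?_ hmul
    rintro _ ⟨_, ⟨a, rfl⟩, _, ⟨b, rfl⟩, rfl⟩
    exact ⟨a * b, map_mul _ _ _⟩
  | add x y hx hy => exact Submodule.add_mem _ hx hy
theorem killer_ringHom_ext {ι A : Type*} [Ring A] {f g : FreeAlgebra ℤ ι →+* A}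
    (h : ∀ i, f (FreeAlgebra.ι ℤ i) = g (FreeAlgebra.ι ℤ i)) : f = g := by
  apply RingHom.ext
  intro P
  induction P using FreeAlgebra.induction with
  | grade0 n =>
    rw [eq_intCast (algebraMap ℤ (FreeAlgebra ℤ ι)) n, map_intCast, map_intCast]
  | grade1 i => exact h i
  | mul x y hx hy => rw [map_mul, map_mul, hx, hy]
  | add x y hx hy => rw [map_add, map_add, hx, hy]

section Inter

variable {ι V : Type*} [AddCommGroup V] [Module ℂ V] {r : ℕ}
  (T : ι → Module.End ℂ V) (t : ι → Matrix (Fin r) (Fin r) ℤ)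
  (E : (Fin r → ℂ) ≃ₗ[ℂ] V × V)

/-- the diagonal ring hom `End V → End (V × V)` -/
def killerDiag (V : Type*) [AddCommGroup V] [Module ℂ V] :
    Module.End ℂ V →+* Module.End ℂ (V × V) :=
  (LinearMap.prodMapRingHom ℂ V V).comp ((RingHom.id _).prod (RingHom.id _))

theorem killerDiag_apply (f : Module.End ℂ V) : killerDiag V f = f.prodMap f := rfl

theorem killerDiag_injective : Function.Injective (killerDiag V) := by
  intro f f' h
  ext x
  have := congrArg (fun F : Module.End ℂ (V × V) => (F (x, 0)).1) h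
  simpa [killerDiag_apply] using this

/-- complex matrices as endomorphisms of `V × V` through `E` -/
def killerMatC : Matrix (Fin r) (Fin r) ℂ →+* Module.End ℂ (V × V) :=
  (E.conjRingEquiv : Module.End ℂ (Fin r → ℂ) →+* Module.End ℂ (V × V)).comp
    (Matrix.toLinAlgEquiv' (R := ℂ) (n := Fin r) : Matrix (Fin r) (Fin r) ℂ →+* _)

theorem killerMatC_apply (A : Matrix (Fin r) (Fin r) ℂ) (x : V × V) :
    killerMatC E A x = E (Matrix.toLin' A (E.symm x)) := rfl

theorem killerMatC_injective : Function.Injective (killerMatC (V := V) E) := by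
  intro A A' h
  apply Matrix.toLin'.injective
  apply LinearMap.ext
  intro c
  have := congrArg (fun F : Module.End ℂ (V × V) => E.symm (F (E c))) h
  simpa [killerMatC_apply] using this

theorem killerMatC_smul (z : ℂ) (A : Matrix (Fin r) (Fin r) ℂ) :
    killerMatC (V := V) E (z • A) = z • killerMatC E A := by
  ext x <;> simp [killerMatC_apply]

theorem killer_intertwine
    (hE : ∀ i c, E (Matrix.toLin' ((t i).map (Int.cast : ℤ → ℂ)) c) = (T i).prodMap (T i) (E c))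
    (Q : FreeAlgebra ℤ ι) :
    killerMatC E ((FreeAlgebra.lift ℤ t Q).map (Int.cast : ℤ → ℂ)) =
      killerDiag V (FreeAlgebra.lift ℤ T Q) := by
  have key : ((killerMatC (V := V) E).comp ((Int.castRingHom ℂ).mapMatrix)).comp
        (FreeAlgebra.lift ℤ t : FreeAlgebra ℤ ι →+* Matrix (Fin r) (Fin r) ℤ) =
      (killerDiag V).comp (FreeAlgebra.lift ℤ T : FreeAlgebra ℤ ι →+* Module.End ℂ V) := by
    apply killer_ringHom_ext
    intro i
    apply LinearMap.ext
    intro x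
    simp only [RingHom.coe_comp, RingHom.coe_coe, Function.comp_apply, FreeAlgebra.lift_ι_apply,
      RingHom.mapMatrix_apply, killerMatC_apply, killerDiag_apply]
    rw [show ((t i).map ⇑(Int.castRingHom ℂ)) = (t i).map (Int.cast : ℤ → ℂ) from rfl, hE,
      E.apply_symm_apply]
  exact DFunLike.congr_fun key Q

theorem killer_lift_eq_zero_iff
    (hE : ∀ i c, E (Matrix.toLin' ((t i).map (Int.cast : ℤ → ℂ)) c) = (T i).prodMap (T i) (E c))
    (Q : FreeAlgebra ℤ ι) :
    FreeAlgebra.lift ℤ T Q = 0 ↔ FreeAlgebra.lift ℤ t Q = 0 := by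
  have h := killer_intertwine T t E hE Q
  constructor
  · intro h0
    rw [h0, map_zero] at h
    have h1 : (FreeAlgebra.lift ℤ t Q).map (Int.cast : ℤ → ℂ) = 0 :=
      killerMatC_injective E (by rw [h, map_zero])
    ext i j
    have := congrFun (congrFun h1 i) j
    simpa using this
  · intro h0
    rw [h0] at h
    apply killerDiag_injective
    rw [← h, map_zero]
    simp

end Inter
open scoped IsMulCommutative in
theorem killer_exists_rho {V ι : Type*} [AddCommGroup V] [Module ℂ V] (T : ι → Module.End ℂ V)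
    (hcomm : ∀ i j, T i * T j = T j * T i) :
    ∃ ρ : MvPolynomial ι ℂ →ₐ[ℂ] Module.End ℂ V, ∀ i, ρ (MvPolynomial.X i) = T i := by
  have hc : ∀ x ∈ Set.range T, ∀ y ∈ Set.range T, x * y = y * x := by
    rintro _ ⟨i, rfl⟩ _ ⟨j, rfl⟩
    exact hcomm i j
  have := Algebra.isMulCommutative_adjoin ℂ hc
  let τ : ι → Algebra.adjoin ℂ (Set.range T) := fun i => ⟨T i, Algebra.subset_adjoin ⟨i, rfl⟩⟩
  refine ⟨(Algebra.adjoin ℂ (Set.range T)).val.comp (MvPolynomial.aeval τ), fun i => ?_⟩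
  rw [AlgHom.comp_apply, MvPolynomial.aeval_X]
  rfl

section Eigen

variable {ι V : Type*} [AddCommGroup V] [Module ℂ V] {r : ℕ}
  (T : ι → Module.End ℂ V) (t : ι → Matrix (Fin r) (Fin r) ℤ)
  (E : (Fin r → ℂ) ≃ₗ[ℂ] V × V)

/-- the complex relations among the `P(T)` come from the integral ones -/
theorem killer_descent_freeAlgebra
    (hE : ∀ i c, E (Matrix.toLin' ((t i).map (Int.cast : ℤ → ℂ)) c) = (T i).prodMap (T i) (E c))
    (a : ι → ℂ)
    (H : ∀ P : FreeAlgebra ℤ ι, FreeAlgebra.lift ℤ T P = 0 → FreeAlgebra.lift ℤ a P = 0)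
    (P : FreeAlgebra ℂ ι) (hP : FreeAlgebra.lift ℂ T P = 0) : FreeAlgebra.lift ℂ a P = 0 := by
  classical
  -- compatibility of the lifts with the base change
  have hβT : ∀ Q : FreeAlgebra ℤ ι, FreeAlgebra.lift ℂ T (killerBeta ι Q) = FreeAlgebra.lift ℤ T Q := by
    intro Q
    have : ((FreeAlgebra.lift ℂ T : FreeAlgebra ℂ ι →+* Module.End ℂ V).comp
        (killerBeta ι : FreeAlgebra ℤ ι →+* FreeAlgebra ℂ ι)) =
        (FreeAlgebra.lift ℤ T : FreeAlgebra ℤ ι →+* Module.End ℂ V) := by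
      apply killer_ringHom_ext
      intro i
      simp only [RingHom.coe_comp, RingHom.coe_coe, Function.comp_apply, killerBeta_ι,
        FreeAlgebra.lift_ι_apply]
    exact DFunLike.congr_fun this Q
  have hβa : ∀ Q : FreeAlgebra ℤ ι, FreeAlgebra.lift ℂ a (killerBeta ι Q) = FreeAlgebra.lift ℤ a Q := by
    intro Q
    have : ((FreeAlgebra.lift ℂ a : FreeAlgebra ℂ ι →+* ℂ).comp
        (killerBeta ι : FreeAlgebra ℤ ι →+* FreeAlgebra ℂ ι)) =
        (FreeAlgebra.lift ℤ a : FreeAlgebra ℤ ι →+* ℂ) := by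
      apply killer_ringHom_ext
      intro i
      simp only [RingHom.coe_comp, RingHom.coe_coe, Function.comp_apply, killerBeta_ι,
        FreeAlgebra.lift_ι_apply]
    exact DFunLike.congr_fun this Q
  have hmem : P ∈ Submodule.span ℂ (Set.range (killerBeta ι)) := by
    rw [killer_span_top]; trivial
  obtain ⟨c, rfl⟩ := Finsupp.mem_span_range_iff_exists_finsupp.mp hmem
  rw [Finsupp.sum, map_sum] at hP ⊢
  simp only [map_smul, hβT, hβa] at hP ⊢
  -- the matrix relation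
  have hmat : ∑ Q ∈ c.support, c Q • (FreeAlgebra.lift ℤ t Q).map (Int.cast : ℤ → ℂ) = 0 := by
    apply killerMatC_injective (V := V) E
    rw [map_sum, map_zero]
    simp only [killerMatC_smul, killer_intertwine T t E hE]
    rw [← map_zero (killerDiag V), ← hP, map_sum]
    refine Finset.sum_congr rfl fun Q _ => ?_
    apply LinearMap.ext
    intro x
    simp [killerDiag_apply]
  have hdes := killer_descent c.support
    (fun Q (γ : Fin r × Fin r) => FreeAlgebra.lift ℤ t Q γ.1 γ.2)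
    (fun Q => FreeAlgebra.lift ℤ a Q) ?_ (fun Q => c Q) ?_
  · simpa [smul_eq_mul] using hdes
  · intro m hm
    have h0 : FreeAlgebra.lift ℤ t (∑ Q ∈ c.support, m Q • Q) = 0 := by
      rw [map_sum]
      ext i j
      rw [Matrix.sum_apply, Matrix.zero_apply, ← hm (i, j)]
      refine Finset.sum_congr rfl fun Q _ => ?_
      rw [map_zsmul, Matrix.smul_apply, smul_eq_mul]
    have h1 := H _ ((killer_lift_eq_zero_iff T t E hE _).mpr h0)
    rw [map_sum] at h1
    rw [← h1]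
    refine Finset.sum_congr rfl fun Q _ => ?_
    rw [map_zsmul, zsmul_eq_mul]
  · intro γ
    have := congrFun (congrFun hmat γ.1) γ.2
    rw [Matrix.sum_apply] at this
    simpa [Matrix.smul_apply] using this

end Eigen

section Eigen2

variable {ι V : Type*} [AddCommGroup V] [Module ℂ V] [FiniteDimensional ℂ V] {r : ℕ}
  (T : ι → Module.End ℂ V) (t : ι → Matrix (Fin r) (Fin r) ℤ)
  (E : (Fin r → ℂ) ≃ₗ[ℂ] V × V)

open Fermat.Agent.Helper8 in
/-- **the eigenvector**: if every integral noncommutative polynomial killing the commuting family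
`T` (which has an integral structure `t`) also kills the system `a`, then `a` is a system of
eigenvalues of `T`. -/
theorem killer_exists_eigenvector
    (hcomm : ∀ i j, T i * T j = T j * T i)
    (hE : ∀ i c, E (Matrix.toLin' ((t i).map (Int.cast : ℤ → ℂ)) c) = (T i).prodMap (T i) (E c))
    (a : ι → ℂ)
    (H : ∀ P : FreeAlgebra ℤ ι, FreeAlgebra.lift ℤ T P = 0 → FreeAlgebra.lift ℤ a P = 0) :
    ∃ v : V, v ≠ 0 ∧ ∀ i, T i v = a i • v := by
  obtain ⟨ρ, hρ⟩ := killer_exists_rho T hcomm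
  -- the surjection from the free algebra
  let π : FreeAlgebra ℂ ι →ₐ[ℂ] MvPolynomial ι ℂ := FreeAlgebra.lift ℂ (MvPolynomial.X)
  have hπ : Function.Surjective π := by
    rw [← AlgHom.range_eq_top, eq_top_iff, ← MvPolynomial.adjoin_range_X, Algebra.adjoin_le_iff]
    rintro _ ⟨i, rfl⟩
    exact ⟨FreeAlgebra.ι ℂ i, FreeAlgebra.lift_ι_apply _ _⟩
  have hρπ : ρ.comp π = FreeAlgebra.lift ℂ T := by
    apply FreeAlgebra.hom_ext
    funext i
    simp only [Function.comp_apply, AlgHom.comp_apply, π, FreeAlgebra.lift_ι_apply, hρ]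
  have haπ : (MvPolynomial.aeval a).comp π = FreeAlgebra.lift ℂ a := by
    apply FreeAlgebra.hom_ext
    funext i
    simp only [Function.comp_apply, AlgHom.comp_apply, π, FreeAlgebra.lift_ι_apply,
      MvPolynomial.aeval_X]
  -- the kernel condition
  let 𝔪 : Ideal (MvPolynomial ι ℂ) := RingHom.ker (MvPolynomial.aeval a : MvPolynomial ι ℂ →ₐ[ℂ] ℂ)
  have h𝔪 : 𝔪.IsPrime := RingHom.ker_isPrime _
  have hker : RingHom.ker (ρ : MvPolynomial ι ℂ →+* Module.End ℂ V) ≤ 𝔪 := by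
    intro P₀ hP₀
    obtain ⟨P, rfl⟩ := hπ P₀
    rw [RingHom.mem_ker] at hP₀ ⊢
    have h1 : FreeAlgebra.lift ℂ T P = 0 := by
      rw [← hρπ]; exact hP₀
    have h2 := killer_descent_freeAlgebra T t E hE a H P h1
    rw [← haπ] at h2
    exact h2
  obtain ⟨v, χ, hv, hχ, hle⟩ := exists_eigenvector_ker_le (ρ : MvPolynomial ι ℂ →+* Module.End ℂ V) 𝔪 hker
  have hcancel : ∀ {x y : ℂ}, x • v = y • v → x = y := by
    intro x y hxy
    have : (x - y) • v = 0 := by rw [sub_smul, hxy, sub_self]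
    rcases smul_eq_zero.mp this with h | h
    · exact sub_eq_zero.mp h
    · exact absurd h hv
  have hC : ∀ z : ℂ, χ (MvPolynomial.C z) = z := by
    intro z
    apply hcancel
    rw [← hχ]
    have : (ρ : MvPolynomial ι ℂ →+* Module.End ℂ V) (MvPolynomial.C z) = algebraMap ℂ _ z :=
      ρ.commutes z
    rw [this, Module.algebraMap_end_apply]
  refine ⟨v, hv, fun i => ?_⟩
  have hmem : MvPolynomial.X i - MvPolynomial.C (χ (MvPolynomial.X i)) ∈ RingHom.ker χ := by
    rw [RingHom.mem_ker, map_sub, hC, sub_self]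
  have h3 := hle hmem
  rw [RingHom.mem_ker, map_sub, MvPolynomial.aeval_X, MvPolynomial.aeval_C] at h3
  have h4 : a i = χ (MvPolynomial.X i) := sub_eq_zero.mp h3
  have h5 := hχ (MvPolynomial.X i)
  rw [RingHom.coe_coe, hρ] at h5
  rw [h5, ← h4]

end Eigen2

/-! ### The modular side -/

section Modular

open Fermat.Agent.Helper8 Fermat.Agent.S41lib.NEW

variable {M : ℕ} [NeZero M]

/-- Packaging without the `U_q`-condition: a nonzero simultaneous eigenvector of the `T_ℓ`,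
`ℓ ∈ P₀`, gives a normalized eigenform with the same eigenvalues on `P₀`. -/
theorem killer_exists_normalizedEigenform (P₀ : Set ℕ) (lam : ℕ → ℂ)
    (v : CuspForm (Gamma0 M) 2) (hv : v ≠ 0)
    (hvT : ∀ (ℓ : ℕ) (hℓ : ℓ.Prime) (hℓM : ¬ ℓ ∣ M), ℓ ∈ P₀ →
      heckeTLin 2 hℓ hℓM v = lam ℓ • v) :
    ∃ g : CuspForm (Gamma0 M) 2, g.IsNormalizedEigenform ∧
      ∀ ℓ : ℕ, ℓ.Prime → ¬ ℓ ∣ M → ℓ ∈ P₀ → qCoeff ⇑g ℓ = lam ℓ := by
  let X : Submodule ℂ (CuspForm (Gamma0 M) 2) :=
    { carrier := {f | ∀ (ℓ : ℕ) (hℓ : ℓ.Prime) (hℓM : ¬ ℓ ∣ M), ℓ ∈ P₀ →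
          heckeTLin 2 hℓ hℓM f = lam ℓ • f}
      add_mem' := by
        intro f f' hf1 hf1' ℓ hℓ hℓM hℓP
        rw [map_add, hf1 ℓ hℓ hℓM hℓP, hf1' ℓ hℓ hℓM hℓP, smul_add]
      zero_mem' := fun ℓ hℓ hℓM _ => by rw [map_zero, smul_zero]
      smul_mem' := by
        intro c f hf1 ℓ hℓ hℓM hℓP
        rw [map_smul, hf1 ℓ hℓ hℓM hℓP, smul_comm] }
  have hvX : v ∈ X := hvT
  have hX : X ≠ ⊥ := fun h0 => hv (by rw [h0] at hvX; exact (Submodule.mem_bot ℂ).mp hvX)
  have hstab : ∀ t : HeckeT M, ∀ f ∈ X, (t : Module.End ℂ (CuspForm (Gamma0 M) 2)) f ∈ X := by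
    intro t f hf1 ℓ hℓ hℓM hℓP
    have hc : heckeAlgebra.T hℓ hℓM (Set.notMem_empty ℓ) * t =
        t * heckeAlgebra.T hℓ hℓM (Set.notMem_empty ℓ) := mul_comm _ _
    have hc' := congrArg (fun s : HeckeT M =>
      (s : Module.End ℂ (CuspForm (Gamma0 M) 2)) f) hc
    simp only [MulMemClass.coe_mul, heckeAlgebra.coe_T, Module.End.mul_apply] at hc'
    rw [hc', hf1 ℓ hℓ hℓM hℓP, map_smul]
  obtain ⟨g, χ, hgX, hg0, hχ⟩ := exists_eigenvector_of_stable X hX hstab
  obtain ⟨g', hg'eig, hval⟩ := exists_normalizedEigenform_full hg0 χ hχ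
  have hcancel : ∀ {a b : ℂ}, a • g = b • g → a = b := by
    intro a b hab
    have : (a - b) • g = 0 := by rw [sub_smul, hab, sub_self]
    rcases smul_eq_zero.mp this with h1 | h1
    · exact sub_eq_zero.mp h1
    · exact absurd h1 hg0
  refine ⟨g', hg'eig, fun ℓ hℓ hℓM hℓP => ?_⟩
  rw [hval ℓ hℓ, eigenvalueFn, dif_pos hℓ, dif_neg hℓM]
  apply hcancel
  rw [← hχ, heckeAlgebra.coe_T]
  exact hgX ℓ hℓ hℓM hℓP

/-- the Hecke operators on forms vanish under `P` iff the integer matrices do -/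
theorem killer_lift_heckeS2_eq_zero_iff {N : ℕ} [NeZero N] {r : ℕ}
    (b : Basis (Fin r) ℤ ↥(VZ (Gamma0 N))) {ι : Type*} (j : ι → Nat.Primes)
    (P : FreeAlgebra ℤ ι) :
    FreeAlgebra.lift ℤ (fun i : ι => H.heckeS2 N (j i)) P = 0 ↔
      FreeAlgebra.lift ℤ (fun i : ι => H.tMat b (j i)) P = 0 :=
  killer_lift_eq_zero_iff (fun i : ι => H.heckeS2 N (j i)) (fun i : ι => H.tMat b (j i))
    (H.coordEquiv N b) (fun i c => H.coordEquiv_tMat N b (j i) c) P

/-- **The Hecke killer** (R2.1). -/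
theorem exists_killer {M' q : ℕ} [NeZero M'] [NeZero (M' * q)] (hq : q.Prime) (hqM : ¬ q ∣ M')
    {g : CuspForm (Gamma0 (M' * q)) 2} (hg : g.IsNewform) :
    ∃ P : FreeAlgebra ℤ {ℓ : Nat.Primes // ¬ (ℓ : ℕ) ∣ M' * q},
      FreeAlgebra.lift ℤ (fun ℓ : {ℓ : Nat.Primes // ¬ (ℓ : ℕ) ∣ M' * q} =>
        qCoeff g (ℓ.1 : ℕ)) P ≠ 0 ∧
      FreeAlgebra.lift ℤ (fun ℓ : {ℓ : Nat.Primes // ¬ (ℓ : ℕ) ∣ M' * q} =>
        H.heckeS2 M' ℓ.1) P = 0 := by
  by_contra hne
  have hH : ∀ P : FreeAlgebra ℤ {ℓ : Nat.Primes // ¬ (ℓ : ℕ) ∣ M' * q},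
      FreeAlgebra.lift ℤ (fun ℓ : {ℓ : Nat.Primes // ¬ (ℓ : ℕ) ∣ M' * q} =>
        H.heckeS2 M' ℓ.1) P = 0 →
      FreeAlgebra.lift ℤ (fun ℓ : {ℓ : Nat.Primes // ¬ (ℓ : ℕ) ∣ M' * q} =>
        qCoeff g (ℓ.1 : ℕ)) P = 0 := by
    intro P hP
    by_contra h
    exact hne ⟨P, h, hP⟩
  have hndvd : ∀ ℓ : {ℓ : Nat.Primes // ¬ (ℓ : ℕ) ∣ M' * q}, ¬ ((ℓ.1 : Nat.Primes) : ℕ) ∣ M' :=
    fun ℓ h => ℓ.2 (Dvd.dvd.mul_right h q)
  have : FiniteDimensional ℂ (CuspForm (Gamma0 M') 2) :=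
    Fermat.Agent.ProgramR.ES.finiteDimensional_cuspForm M'
  have hcomm : ∀ i j : {ℓ : Nat.Primes // ¬ (ℓ : ℕ) ∣ M' * q},
      H.heckeS2 M' i.1 * H.heckeS2 M' j.1 = H.heckeS2 M' j.1 * H.heckeS2 M' i.1 := by
    intro i j
    rw [H.heckeS2_of_not_dvd M' (hndvd i), H.heckeS2_of_not_dvd M' (hndvd j)]
    exact (heckeTLin_comm 2 i.1.2 (hndvd i) j.1.2 (hndvd j)).eq
  let b : Basis (Fin (Module.finrank ℤ ↥(VZ (Gamma0 M')))) ℤ ↥(VZ (Gamma0 M')) :=
    Module.finBasis ℤ ↥(VZ (Gamma0 M'))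
  obtain ⟨v, hv, hvT⟩ := killer_exists_eigenvector
    (fun ℓ : {ℓ : Nat.Primes // ¬ (ℓ : ℕ) ∣ M' * q} => H.heckeS2 M' ℓ.1)
    (fun ℓ : {ℓ : Nat.Primes // ¬ (ℓ : ℕ) ∣ M' * q} => H.tMat b ℓ.1)
    (H.coordEquiv M' b) hcomm (fun i c => H.coordEquiv_tMat M' b i.1 c)
    (fun ℓ : {ℓ : Nat.Primes // ¬ (ℓ : ℕ) ∣ M' * q} => qCoeff g (ℓ.1 : ℕ)) hH
  obtain ⟨g', hg', hval⟩ := killer_exists_normalizedEigenform (M := M')
    {ℓ : ℕ | ¬ ℓ ∣ M' * q} (fun ℓ => qCoeff g ℓ) v hv (by
      intro ℓ hℓ hℓM hℓP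
      have := hvT ⟨⟨ℓ, hℓ⟩, hℓP⟩
      rw [H.heckeS2_of_not_dvd M' (show ¬ ((⟨ℓ, hℓ⟩ : Nat.Primes) : ℕ) ∣ M' from hℓM)] at this
      exact this)
  refine hg.2 M' (Dvd.intro q rfl) ?_ ⟨g', hg', fun ℓ hℓ hℓN => ?_⟩
  · intro h
    have h1 : M' * 1 = M' * q := by rw [mul_one]; exact h
    have h2 := Nat.eq_of_mul_eq_mul_left (Nat.pos_of_ne_zero (NeZero.ne M')) h1
    exact hq.one_lt.ne h2
  · exact hval ℓ hℓ (fun h => hℓN (Dvd.dvd.mul_right h q)) hℓN

/-! ### The killer as a polynomial in all primes -/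

/-- reindexing of the variables: the free algebra on a subtype inside the free algebra on the
whole type -/
def killerEmb {ι : Type*} (p : ι → Prop) : FreeAlgebra ℤ {i : ι // p i} →ₐ[ℤ] FreeAlgebra ℤ ι :=
  FreeAlgebra.lift ℤ (fun i : {i : ι // p i} => FreeAlgebra.ι ℤ i.1)

theorem killerEmb_ι {ι : Type*} (p : ι → Prop) (i : {i : ι // p i}) :
    killerEmb p (FreeAlgebra.ι ℤ i) = FreeAlgebra.ι ℤ i.1 := by
  rw [killerEmb, FreeAlgebra.lift_ι_apply]

/-- evaluating a reindexed polynomial -/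
theorem killer_lift_killerEmb {ι A : Type*} [Ring A] [Algebra ℤ A] (p : ι → Prop) (f : ι → A)
    (P : FreeAlgebra ℤ {i : ι // p i}) :
    FreeAlgebra.lift ℤ f (killerEmb p P) =
      FreeAlgebra.lift ℤ (fun i : {i : ι // p i} => f i.1) P := by
  have : ((FreeAlgebra.lift ℤ f : FreeAlgebra ℤ ι →+* A).comp
      (killerEmb p : FreeAlgebra ℤ {i : ι // p i} →+* FreeAlgebra ℤ ι)) =
      (FreeAlgebra.lift ℤ (fun i : {i : ι // p i} => f i.1) :
        FreeAlgebra ℤ {i : ι // p i} →+* A) := by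
    apply killer_ringHom_ext
    intro i
    simp only [RingHom.coe_comp, RingHom.coe_coe, Function.comp_apply, killerEmb_ι,
      FreeAlgebra.lift_ι_apply]
  exact DFunLike.congr_fun this P

/-- **The Hecke killer**, as a noncommutative polynomial in ALL primes which only involves the
variables `ℓ ∤ M' q` (form used by `S35lib/KillInterface`: `coeffEval g P ≠ 0`). -/
theorem exists_killer_primes {M' q : ℕ} [NeZero M'] [NeZero (M' * q)] (hq : q.Prime)
    (hqM : ¬ q ∣ M') {g : CuspForm (Gamma0 (M' * q)) 2} (hg : g.IsNewform) :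
    ∃ P₀ : FreeAlgebra ℤ {ℓ : Nat.Primes // ¬ (ℓ : ℕ) ∣ M' * q},
      FreeAlgebra.lift ℤ (fun ℓ : Nat.Primes => qCoeff g (ℓ : ℕ))
        (killerEmb (fun ℓ : Nat.Primes => ¬ (ℓ : ℕ) ∣ M' * q) P₀) ≠ 0 ∧
      FreeAlgebra.lift ℤ (fun ℓ : Nat.Primes => H.heckeS2 M' ℓ)
        (killerEmb (fun ℓ : Nat.Primes => ¬ (ℓ : ℕ) ∣ M' * q) P₀) = 0 := by
  obtain ⟨P₀, h1, h2⟩ := exists_killer hq hqM hg
  refine ⟨P₀, ?_, ?_⟩
  · rw [killer_lift_killerEmb]; exact h1
  · rw [killer_lift_killerEmb]; exact h2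

end Modular

end Fermat.Agent.S35lib.New
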