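/-
S35lib / New / PushHeckeJB  (helper5)   -- brick R2.3 of route FN (S35), J-level, `β`-part

The push-forward `pushB N q = β_* : J₀(N q) → J₀(N)` (`q ∤ N` prime) and its compatibility with the
Hecke operators `TJ ℓ`, `ℓ ∤ N q`, on torsion classes:  `β_* (TJ ℓ x) = TJ ℓ (β_* x)`.
On Kummer representatives: `N_β f = N_α (w_q f)` (helper9) and `w_q` commutes with the Kummer
representative of `T_ℓ` (helper4), so the statement follows from the `α`-part.
-/
import Mathlib
import Fermat.Agent.S35lib.New.PushHeckeJ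
import Fermat.Agent.S35lib.New.WqHecke
import Fermat.Agent.LSc.Inst.NormBeta

set_option autoImplicit false
set_option linter.style.haveILetI false
set_option linter.unusedSectionVars false

noncomputable section

namespace Fermat.Agent.S35lib.New

open AlgebraicCurve ModularCurve
open Fermat.Agent.S29lib Fermat.Agent.S29lib.D Fermat.Agent.S37lib.HeckeInst
open Fermat.Agent.ProgramR.BarField

/-- `ℚ̄` -/
local notation "Qb" => AlgebraicClosure ℚ

section Push

variable (N q : ℕ) [NeZero N] [NeZero q]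

/-- the push-forward `β_* : J₀(N q) → J₀(N)` along `heckeBetaBar N q` -/
def pushB : JZero (N * q) →+ JZero N :=
  haveI := hasPrincipalDivisors_FB (N * q)
  Fermat.Agent.LSb.Xfer.pic0PushforwardAlong (heckeBetaBar Qb N q) (heckeBetaBarIntegral N q)
    (finiteAlong_beta N q) (normFormulaAlong_beta N q)

/-- Kummer representatives under `β_*`: the norm along `β`. -/
theorem kummerRel_pushB {n : ℕ} {x : JZero (N * q)} {f : modularFunctionFieldBar (N * q)}
    (h : KummerRel n x f) :
    KummerRel n (pushB N q x) (normAlong (heckeBetaBar Qb N q) f) := by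
  haveI := hasPrincipalDivisors_FB (N * q)
  obtain ⟨hf, D, rfl, hD⟩ := h
  refine ⟨normAlong_ne_zero (heckeBetaBar Qb N q) hf (finiteAlong_beta N q), _,
    (Fermat.Agent.LSb.Xfer.pic0PushforwardAlong_mk (heckeBetaBar Qb N q)
      (heckeBetaBarIntegral N q) (finiteAlong_beta N q) (normFormulaAlong_beta N q) D).symm,
    fun P => ?_⟩
  show (n : ℤ) * Divisor.pushforwardAlong (heckeBetaBar Qb N q) (heckeBetaBarIntegral N q)
    (D : Divisor Qb (modularFunctionFieldBar (N * q))) P = _
  have h1 : ∀ w : Place Qb (modularFunctionFieldBar (N * q)),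
      ((n : ℤ) • (D : Divisor Qb (modularFunctionFieldBar (N * q)))) w = w.ord f := fun w => by
    rw [Finsupp.smul_apply, smul_eq_mul, hD w]
  have h2 := pushforwardAlong_apply_eq_ord (heckeBetaBar Qb N q) (heckeBetaBarIntegral N q)
    (finiteAlong_beta N q) (normFormulaAlong_beta N q) hf h1 P
  rw [← h2, map_zsmul, Finsupp.smul_apply, smul_eq_mul]

end Push

section Comm

variable {N q : ℕ} [NeZero N] [Fact q.Prime] (hqN : ¬ q ∣ N)

include hqN in
/-- **`β_* ∘ TJ ℓ = TJ ℓ ∘ β_*` on torsion classes, `ℓ ∤ N q`.** -/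
theorem pushB_TJ (ℓ : Nat.Primes) (hℓ : ¬ (ℓ : ℕ) ∣ N * q) {n : ℕ} (hn : 0 < n)
    (x : JZero (N * q)) (hx : (n : ℤ) • x = 0) :
    haveI : NeZero q := ⟨(Fact.out : q.Prime).ne_zero⟩
    pushB N q (H.TJ (N * q) ℓ x) = H.TJ N ℓ (pushB N q x) := by
  haveI : NeZero q := ⟨(Fact.out : q.Prime).ne_zero⟩
  haveI : Fact (ℓ : ℕ).Prime := ⟨ℓ.2⟩
  haveI : NeZero (ℓ : ℕ) := ⟨ℓ.2.ne_zero⟩
  have hq : q.Prime := Fact.out
  have hℓN : ¬ (ℓ : ℕ) ∣ N := fun h => hℓ (Dvd.dvd.mul_right h q)
  obtain ⟨f, hf⟩ := exists_kummerRel hx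
  -- left hand side
  have h1 := kummerRel_pushB N q (kummerRel_TJ (N * q) ℓ hf)
  rw [normTJ_of_not_dvd (N * q) hℓ] at h1
  -- right hand side
  have h2 := kummerRel_TJ N ℓ (kummerRel_pushB N q hf)
  rw [normTJ_of_not_dvd N hℓN] at h2
  -- the two representatives coincide
  have key : normAlong (heckeBetaBar Qb N q) (normStd (N * q) ℓ f) =
      normStd N ℓ (normAlong (heckeBetaBar Qb N q) f) := by
    rw [Fermat.Agent.LSc.Inst.normAlong_beta_eq N q hq hqN,
      Fermat.Agent.LSc.Inst.normAlong_beta_eq N q hq hqN,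
      ← wqHecke_normStd_wq N q hq hqN (ℓ : ℕ) (wqHecke_not_dvd N q hq hqN ℓ.2 hℓ) f]
    exact norm_alpha_norm_alpha_beta hqN hℓN hℓ qbarEmb _
  rw [key] at h1
  exact KummerRel_class_unique hn h1 h2

end Comm

end Fermat.Agent.S35lib.New
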