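/-
S35lib / New / Main  (helper5)   -- brick R2.5 of route FN (S35): assembly of block R2

For `N = M' q`, `q ∤ M'` prime, `g` a newform of level `N` and a prime `p`:

* `exists_qNew_killer` : there is a noncommutative integer polynomial `P₀` in the Hecke operators
  `T_ℓ`, `ℓ ∤ N`, with `P₀(a_ℓ(g)) ≠ 0`, such that for every `x ∈ J₀(N)[p^k]` the class `P₀(T) x`
  is `q`-new:  `α_* (P₀(T) x) = 0 = β_* (P₀(T) x)`.
  [helper3's killer `P₀(T') = 0` on `S₂(Γ₀(M'))`  ⇒  `P₀(T') = 0` on `J₀(M')[p^k]` (helper6)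
   ⇒  `α_* P₀(T) x = P₀(T') α_* x = 0` (`pushA_TJ`, `pushB_TJ`).]
* `frobKillAt_of_frobNew` : hence the "Frobenius relation on `q`-new torsion classes"
  (project LSc: `FrobNewAt`/`FrobNewTors`) gives lead's interface statement `FrobKillAt N p q g`.
-/
import Mathlib
import Fermat.Agent.S35lib.New.PushHeckeJB
import Fermat.Agent.S35lib.New.Killer
import Fermat.Agent.S35lib.New.KillerJ
import Fermat.Agent.S35lib.New.FreeBridge
import Fermat.Agent.S35lib.KillInterface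

set_option autoImplicit false
set_option linter.style.haveILetI false
set_option linter.unusedSectionVars false

noncomputable section

namespace Fermat.Agent.S35lib.New

open ModularCurve CongruenceSubgroup ModularFormClass
open Fermat.Agent.S29lib Fermat.Agent.S35lib

/-- `ℚ̄` -/
local notation "Qb" => AlgebraicClosure ℚ
/-- `G_ℚ` -/
local notation "GQ" => (AlgebraicClosure ℚ ≃ₐ[ℚ] AlgebraicClosure ℚ)

/-- the primes not dividing `N` -/
abbrev GoodIdx (N : ℕ) : Type := {ℓ : Nat.Primes // ¬ (ℓ : ℕ) ∣ N}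

section Intertwine

variable {M' q : ℕ} [NeZero M'] [Fact q.Prime] (hqM : ¬ q ∣ M')

include hqM in
/-- `α_*` intertwines `P(TJ)` at level `M' q` with `P(TJ)` at level `M'`, on `p`-power torsion -/
theorem pushA_lift_TJ {p : ℕ} (hp : p.Prime) (Q : FreeRing (GoodIdx (M' * q))) (k : ℕ)
    {x : JZero (M' * q)} (hx : x ∈ Tors (M' * q) (p ^ k)) :
    haveI : NeZero q := ⟨(Fact.out : q.Prime).ne_zero⟩
    pushA M' q (FreeRing.lift (R := AddMonoid.End (JZero (M' * q)))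
        (fun i : GoodIdx (M' * q) => H.TJ (M' * q) i.1) Q x) =
      FreeRing.lift (R := AddMonoid.End (JZero M')) (fun i : GoodIdx (M' * q) => H.TJ M' i.1) Q
        (pushA M' q x) := by
  haveI : NeZero q := ⟨(Fact.out : q.Prime).ne_zero⟩
  have h := lift_intertwine
    ((pushA M' q).comp (Tors (M' * q) (p ^ k)).subtype.toAddMonoidHom)
    (fun i : GoodIdx (M' * q) => TJTors (comparisonDataAt (M' * q) hp) (p ^ k) i.1)
    (fun i : GoodIdx (M' * q) => H.TJ M' i.1)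
    (fun i v => pushA_TJ hqM i.1 i.2 (pow_pos hp.pos k) (v : JZero (M' * q))
      ((Submodule.mem_torsionBy_iff _ _).1 v.2)) Q ⟨x, hx⟩
  have h2 := coe_lift_TJTors (comparisonDataAt (M' * q) hp)
    (fun i : GoodIdx (M' * q) => i.1) (p ^ k) Q ⟨x, hx⟩
  exact (congrArg (pushA M' q) h2.symm).trans h

include hqM in
/-- `β_*` intertwines `P(TJ)` at level `M' q` with `P(TJ)` at level `M'`, on `p`-power torsion -/
theorem pushB_lift_TJ {p : ℕ} (hp : p.Prime) (Q : FreeRing (GoodIdx (M' * q))) (k : ℕ)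
    {x : JZero (M' * q)} (hx : x ∈ Tors (M' * q) (p ^ k)) :
    haveI : NeZero q := ⟨(Fact.out : q.Prime).ne_zero⟩
    pushB M' q (FreeRing.lift (R := AddMonoid.End (JZero (M' * q)))
        (fun i : GoodIdx (M' * q) => H.TJ (M' * q) i.1) Q x) =
      FreeRing.lift (R := AddMonoid.End (JZero M')) (fun i : GoodIdx (M' * q) => H.TJ M' i.1) Q
        (pushB M' q x) := by
  haveI : NeZero q := ⟨(Fact.out : q.Prime).ne_zero⟩
  have h := lift_intertwine
    ((pushB M' q).comp (Tors (M' * q) (p ^ k)).subtype.toAddMonoidHom)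
    (fun i : GoodIdx (M' * q) => TJTors (comparisonDataAt (M' * q) hp) (p ^ k) i.1)
    (fun i : GoodIdx (M' * q) => H.TJ M' i.1)
    (fun i v => pushB_TJ hqM i.1 i.2 (pow_pos hp.pos k) (v : JZero (M' * q))
      ((Submodule.mem_torsionBy_iff _ _).1 v.2)) Q ⟨x, hx⟩
  have h2 := coe_lift_TJTors (comparisonDataAt (M' * q) hp)
    (fun i : GoodIdx (M' * q) => i.1) (p ^ k) Q ⟨x, hx⟩
  exact (congrArg (pushB M' q) h2.symm).trans h

theorem hom_mem_Tors' {N N' : ℕ} [NeZero N] [NeZero N'] {n : ℕ} (T : JZero N →+ JZero N')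
    {x : JZero N} (hx : x ∈ Tors N n) : T x ∈ Tors N' n := by
  rw [Submodule.mem_torsionBy_iff] at hx ⊢
  rw [← map_zsmul, hx, map_zero]

end Intertwine

section Killer

variable {M' q : ℕ} [NeZero M'] [Fact q.Prime] (hqM : ¬ q ∣ M')

include hqM in
/-- **R2-OUT (`FreeRing` form).**  A newform `g` of level `M' q` has a `q`-new killer. -/
theorem exists_qNew_killer {p : ℕ} (hp : p.Prime)
    {g : CuspForm (Gamma0 (M' * q)) 2} (hg : g.IsNewform) :
    haveI : NeZero q := ⟨(Fact.out : q.Prime).ne_zero⟩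
    ∃ P₀ : FreeAlgebra ℤ (GoodIdx (M' * q)),
      FreeAlgebra.lift ℤ (fun ℓ : GoodIdx (M' * q) => qCoeff g (ℓ.1 : ℕ)) P₀ ≠ 0 ∧
      ∀ (k : ℕ) (x : JZero (M' * q)), x ∈ Tors (M' * q) (p ^ k) →
        pushA M' q (FreeRing.lift (R := AddMonoid.End (JZero (M' * q)))
          (fun i : GoodIdx (M' * q) => H.TJ (M' * q) i.1) (toFreeRing P₀) x) = 0 ∧
        pushB M' q (FreeRing.lift (R := AddMonoid.End (JZero (M' * q)))
          (fun i : GoodIdx (M' * q) => H.TJ (M' * q) i.1) (toFreeRing P₀) x) = 0 := by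
  haveI : NeZero q := ⟨(Fact.out : q.Prime).ne_zero⟩
  obtain ⟨P₀, hP₀a, hP₀⟩ := exists_killer (M' := M') (q := q) Fact.out hqM hg
  refine ⟨P₀, hP₀a, fun k x hx => ?_⟩
  have hkill : FreeRing.lift (fun i : GoodIdx (M' * q) => H.heckeS2 M' i.1) (toFreeRing P₀) = 0 := by
    rw [lift_toFreeRing]
    exact hP₀
  constructor
  · rw [pushA_lift_TJ hqM hp (toFreeRing P₀) k hx]
    exact killer_tors (fun i : GoodIdx (M' * q) => i.1) (toFreeRing P₀) hkill hp k
      (hom_mem_Tors' (pushA M' q) hx)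
  · rw [pushB_lift_TJ hqM hp (toFreeRing P₀) k hx]
    exact killer_tors (fun i : GoodIdx (M' * q) => i.1) (toFreeRing P₀) hkill hp k
      (hom_mem_Tors' (pushB M' q) hx)

end Killer

section Kill

variable {M' q : ℕ} [NeZero M'] [Fact q.Prime] (hqM : ¬ q ∣ M')

/-- the evaluation `heckeEval TJ (killerEmb _ P₀)` of lead's interface, for a `TJ`-family which
agrees with `heckeOperatorBar` at the good primes, in the `FreeRing` form -/
theorem heckeEval_killerEmb {N : ℕ} [NeZero N] (TJ : Nat.Primes → (JZero N →+ JZero N))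
    (hTJ : ∀ ℓ : Nat.Primes, ¬ (ℓ : ℕ) ∣ N → ∀ x : JZero N, TJ ℓ x = heckeOperatorBar N ℓ x)
    (P₀ : FreeAlgebra ℤ (GoodIdx N)) (x : JZero N) :
    heckeEval TJ (killerEmb (fun ℓ : Nat.Primes => ¬ (ℓ : ℕ) ∣ N) P₀) x =
      FreeRing.lift (R := AddMonoid.End (JZero N)) (fun i : GoodIdx N => H.TJ N i.1)
        (toFreeRing P₀) x := by
  have h1 : heckeEval TJ (killerEmb (fun ℓ : Nat.Primes => ¬ (ℓ : ℕ) ∣ N) P₀) =
      FreeAlgebra.lift ℤ (fun i : GoodIdx N => (TJ i.1).toIntLinearMap) P₀ :=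
    killer_lift_killerEmb (fun ℓ : Nat.Primes => ¬ (ℓ : ℕ) ∣ N)
      (fun ℓ : Nat.Primes => (TJ ℓ).toIntLinearMap) P₀
  have h2 : (fun i : GoodIdx N => (TJ i.1).toIntLinearMap) =
      fun i : GoodIdx N => (addMonoidEndRingEquivInt (JZero N)).toRingHom (H.TJ N i.1) := by
    funext i
    apply LinearMap.ext
    intro y
    exact (hTJ i.1 i.2 y).trans (H.TJ_good N i.1 i.2 y).symm
  have h3 := lift_map (addMonoidEndRingEquivInt (JZero N)).toRingHom
    (fun i : GoodIdx N => H.TJ N i.1) (toFreeRing P₀)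
  rw [h1, h2, ← lift_toFreeRing, ← h3]
  rfl

include hqM in
/-- **R2.5**: the Frobenius relation on `q`-new `p`-power torsion classes of `J₀(M' q)` (with a
defect `c ≠ 0`) implies lead's `FrobKillAt (M' q) p q g` for every newform `g` of level `M' q`. -/
theorem frobKillAt_of_frobNew {p : ℕ} (hp : p.Prime)
    {g : CuspForm (Gamma0 (M' * q)) 2} (hg : g.IsNewform) (c : ℤ) (hc : c ≠ 0)
    (hFN : haveI : NeZero q := ⟨(Fact.out : q.Prime).ne_zero⟩
      ∀ A : ValuationSubring Qb, A.LiesOverPrime q → ∀ σ : GQ, A.IsFrobeniusAt σ q →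
      ∀ (k : ℕ) (y : JZero (M' * q)), y ∈ Tors (M' * q) (p ^ k) →
        pushA M' q y = 0 → pushB M' q y = 0 →
        c • ((σ * σ) • (σ * σ) • y - ((1 : ℤ) + (q : ℤ) ^ 2) • (σ * σ) • y
          + ((q : ℤ) ^ 2) • y) = 0) :
    haveI : NeZero q := ⟨(Fact.out : q.Prime).ne_zero⟩
    FrobKillAt (M' * q) p q g := by
  haveI : NeZero q := ⟨(Fact.out : q.Prime).ne_zero⟩
  obtain ⟨P₀, hP₀a, hP₀⟩ := exists_qNew_killer hqM hp hg
  refine ⟨c, killerEmb (fun ℓ : Nat.Primes => ¬ (ℓ : ℕ) ∣ M' * q) P₀, hc, ?_, ?_⟩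
  · have h := killer_lift_killerEmb (fun ℓ : Nat.Primes => ¬ (ℓ : ℕ) ∣ M' * q)
      (fun ℓ : Nat.Primes => qCoeff g (ℓ : ℕ)) P₀
    intro h0
    apply hP₀a
    rw [← h]
    exact h0
  · intro TJ hTJ A hA σ hσ k x hx
    rw [heckeEval_killerEmb TJ hTJ P₀ x]
    obtain ⟨ha, hb⟩ := hP₀ k x hx
    refine hFN A hA σ hσ k _ ?_ ha hb
    exact lift_TJ_mem_Tors (comparisonDataAt (M' * q) hp) (fun i : GoodIdx (M' * q) => i.1)
      (p ^ k) (toFreeRing P₀) hx

end Kill

end Fermat.Agent.S35lib.New
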