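/-
S35lib / New / FinalTors  (helper5)   -- route FN (S35): the same as `Final`, from helper8's
interface form `FrobNewTors M q p` (`S35lib/Interface.lean`) of project LSc.
-/
import Mathlib
import Fermat.Agent.S35lib.New.Main
import Fermat.Agent.S35lib.Interface

set_option autoImplicit false
set_option linter.style.haveILetI false
set_option linter.unusedSectionVars false

noncomputable section

namespace Fermat.Agent.S35lib.New

open ModularCurve CongruenceSubgroup ModularFormClass
open Fermat.Agent.S29lib Fermat.Agent.S35lib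

/-- `FrobNewTors M' q p` gives `FrobKillAt (M' q) p q g` for every newform `g` of level `M' q`. -/
theorem frobKillAt_of_frobNewTors {M' q p : ℕ} [NeZero M'] [NeZero q] (hq : q.Prime)
    (hqM : ¬ q ∣ M') (hp : p.Prime) {g : CuspForm (Gamma0 (M' * q)) 2} (hg : g.IsNewform)
    (hFN : FrobNewTors M' q p) : FrobKillAt (M' * q) p q g := by
  haveI : Fact q.Prime := ⟨hq⟩
  obtain ⟨d, hd, hFN⟩ := hFN
  refine frobKillAt_of_frobNew hqM hp hg (d : ℤ) (by exact_mod_cast hd)
    (fun A hA σ hσ k y hy ha hb => ?_)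
  rw [← frobNewOp_eq (M' * q) q σ y]
  exact hFN A hA σ hσ k y hy ⟨ha, hb⟩

/-- **(KILL) from `FrobNewTors` at all pairs `(M, q)`, `q ∤ M`, `q ≠ p`.** -/
theorem frobKillTors_of_frobNewTors {N p : ℕ} [NeZero N] (hp : p.Prime)
    {g : CuspForm (Gamma0 N) 2} (hg : g.IsNewform)
    (H : ∀ (M q : ℕ) [NeZero M] [NeZero q], q.Prime → ¬ q ∣ M → q ≠ p → FrobNewTors M q p) :
    FrobKillTors N p g := by
  intro q hq hqp hqN hq2
  obtain ⟨M', rfl⟩ : ∃ M', N = M' * q := ⟨N / q, (Nat.div_mul_cancel hqN).symm⟩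
  haveI : NeZero q := ⟨hq.ne_zero⟩
  haveI : NeZero M' := ⟨by
    rintro rfl
    exact NeZero.ne (0 * q) (zero_mul q)⟩
  have hqM : ¬ q ∣ M' := by
    intro h
    apply hq2
    rw [pow_two]
    exact Nat.mul_dvd_mul_right h q
  exact frobKillAt_of_frobNewTors hq hqM hp hg (H M' q hq hqM hqp)

end Fermat.Agent.S35lib.New
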