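/-
S35lib / New / PushHecke  (helper5)   -- brick R2.3 of route FN (S35)

The push-forward `α_* : J₀(N q) → J₀(N)` (`q ∤ N` prime) commutes with the Hecke operators `T_ℓ`,
`ℓ ∤ N q`, on Kummer representatives: the FUNCTION IDENTITY

  `Norm_α (normStd (N q) ℓ f) = normStd N ℓ (Norm_α f)`      in `FBar N`, for `f ∈ FBar (N q)`,

where `Norm_α` is the norm along `heckeAlphaBar N q` and `normStd M ℓ f = Norm_α(β f)` is the Kummer
representative of `T_ℓ`.  Proof: helper1's analytic norm formulas turn both sides into the product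
of the `F ∘ (h_y g_x)`, resp. `F ∘ (g_x h_y)`, over `(x, y) ∈ P¹(𝔽_q) × P¹(𝔽_ℓ)`; the two families
are two systems of representatives of `Γ₀(N q) \ Δ_ℓ` and `F` is `Γ₀(N q)`-invariant.
-/
import Mathlib
import Fermat.Agent.S29lib.H.HeckeNorm
import Fermat.Agent.S29lib.D.KummerHecke
import Fermat.Agent.S41lib.HC.CommuteCores

set_option autoImplicit false
set_option linter.style.haveILetI false
set_option linter.unusedSectionVars false

noncomputable section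

namespace Fermat.Agent.S35lib.New

open UpperHalfPlane Polynomial Matrix.SpecialLinearGroup Fermat.Agent.ProgramR Module
  CongruenceSubgroup ModularForm ModularCurve
open Fermat.Agent.ProgramR.BarField
open Fermat.Agent.S16lib.LH Fermat.Agent.S29lib.H Fermat.Agent.S41lib.HC
open P2MW.S_ModularForm_heckeT_slash_eq_self_of_mem_Gamma0.ModularForm.HeckeSlashInvariance
open scoped MatrixGroups

section Swap

variable {N q ℓ : ℕ} [NeZero N] [Fact q.Prime] [Fact ℓ.Prime] (hqN : ¬ q ∣ N) (hℓN : ¬ ℓ ∣ N)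
  (hℓNq : ¬ ℓ ∣ N * q)

/-- the representative `g_x` of `Γ₀(N q) \ Γ₀(N)` as an element of `GL₂(ℝ)` -/
def aRep (x : OnePoint (ZMod q)) : GL (Fin 2) ℝ :=
  (mapGL ℝ ((alphaRep hqN x : ↥(Gamma0 N)) : SL(2, ℤ)) : GL (Fin 2) ℝ)

theorem aRep_det_pos (x : OnePoint (ZMod q)) : 0 < (aRep hqN x).det.val :=
  (isIntMat_mapGL _).det_pos

include hℓN in
/-- existence part of the coset comparison: `h_y g_x = c · g_{x'} h_{y'}` with `c ∈ Γ₀(N q)` -/
theorem exists_swap (x : OnePoint (ZMod q)) (y : OnePoint (ZMod ℓ)) :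
    ∃ (x' : OnePoint (ZMod q)) (c : SL(2, ℤ)), c ∈ Gamma0 (N * q) ∧
      heckeRep ℓ y * aRep hqN x = (mapGL ℝ c : GL (Fin 2) ℝ) *
        (aRep hqN x' * heckeRep ℓ (tPerm ℓ (alphaRep hqN x) y)) := by
  have htr := isRightTransversal_alphaRep (N := N) (q := q) hqN
  obtain ⟨x', hx'⟩ := htr.surj (tCoc hℓN (alphaRep hqN x) y)⁻¹
  refine ⟨x', _, (⟨_, hx'⟩ : ↥(Gamma0 (N * q)))⁻¹.2, ?_⟩
  show heckeRep ℓ y * (mapGL ℝ ((alphaRep hqN x : ↥(Gamma0 N)) : SL(2, ℤ)) : GL (Fin 2) ℝ) =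
    (mapGL ℝ (((⟨_, hx'⟩ : ↥(Gamma0 (N * q)))⁻¹ : ↥(Gamma0 (N * q))) : SL(2, ℤ)) :
      GL (Fin 2) ℝ) *
    ((mapGL ℝ ((alphaRep hqN x' : ↥(Gamma0 N)) : SL(2, ℤ)) : GL (Fin 2) ℝ) *
      heckeRep ℓ (tPerm ℓ (alphaRep hqN x) y))
  rw [tCoc_rel hℓN, ← mul_assoc, ← map_mul]
  congr 2
  simp

/-- the map `(x, y) ↦ (y', x')` -/
def swapFun (p : OnePoint (ZMod q) × OnePoint (ZMod ℓ)) :
    OnePoint (ZMod ℓ) × OnePoint (ZMod q) :=
  (tPerm ℓ (alphaRep hqN p.1) p.2, (exists_swap hqN hℓN p.1 p.2).choose)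

theorem swapFun_spec (p : OnePoint (ZMod q) × OnePoint (ZMod ℓ)) :
    ∃ c : SL(2, ℤ), c ∈ Gamma0 (N * q) ∧
      heckeRep ℓ p.2 * aRep hqN p.1 = (mapGL ℝ c : GL (Fin 2) ℝ) *
        (aRep hqN (swapFun hqN hℓN p).2 * heckeRep ℓ (swapFun hqN hℓN p).1) :=
  (exists_swap hqN hℓN p.1 p.2).choose_spec

include hℓNq in
/-- uniqueness part of the coset comparison -/
theorem swap_unique {c c' : SL(2, ℤ)} (hc : c ∈ Gamma0 (N * q)) (hc' : c' ∈ Gamma0 (N * q))
    {x x' : OnePoint (ZMod q)} {y y' : OnePoint (ZMod ℓ)}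
    (hcc : (mapGL ℝ c : GL (Fin 2) ℝ) * (heckeRep ℓ y * aRep hqN x) =
      (mapGL ℝ c' : GL (Fin 2) ℝ) * (heckeRep ℓ y' * aRep hqN x')) : x = x' ∧ y = y' := by
  have htr := isRightTransversal_alphaRep (N := N) (q := q) hqN
  have h1 : heckeRep ℓ y * (mapGL ℝ (((alphaRep hqN x * (alphaRep hqN x')⁻¹ : ↥(Gamma0 N)) :
      SL(2, ℤ))) : GL (Fin 2) ℝ) =
      (mapGL ℝ (c⁻¹ * c') : GL (Fin 2) ℝ) * heckeRep ℓ y' := by
    have h0 : heckeRep ℓ y * aRep hqN x =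
        (mapGL ℝ c : GL (Fin 2) ℝ)⁻¹ * ((mapGL ℝ c' : GL (Fin 2) ℝ) *
          (heckeRep ℓ y' * aRep hqN x')) := by
      rw [← hcc, inv_mul_cancel_left]
    rw [Subgroup.coe_mul, Subgroup.coe_inv, map_mul, map_mul, map_inv, map_inv, ← mul_assoc]
    have h0' : heckeRep ℓ y *
        (mapGL ℝ ((alphaRep hqN x : ↥(Gamma0 N)) : SL(2, ℤ)) : GL (Fin 2) ℝ) =
        (mapGL ℝ c : GL (Fin 2) ℝ)⁻¹ * ((mapGL ℝ c' : GL (Fin 2) ℝ) *
          (heckeRep ℓ y' *
            (mapGL ℝ ((alphaRep hqN x' : ↥(Gamma0 N)) : SL(2, ℤ)) : GL (Fin 2) ℝ))) := h0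
    rw [h0']
    simp only [mul_assoc, mul_inv_cancel, mul_one]
  have hcc' : c⁻¹ * c' ∈ Gamma0 (N * q) := mul_mem (inv_mem hc) hc'
  have h2 := mem_Gamma0_of_heckeRep_rel hℓNq hcc' h1
  have hx : x = x' := htr.inj x x' h2
  subst hx
  refine ⟨rfl, ?_⟩
  have h3 : (mapGL ℝ c : GL (Fin 2) ℝ) * heckeRep ℓ y =
      (mapGL ℝ c' : GL (Fin 2) ℝ) * heckeRep ℓ y' := by
    rw [← mul_assoc, ← mul_assoc] at hcc
    exact mul_right_cancel hcc
  exact (heckeRep_coset_unique h3).1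

include hℓNq in
theorem swapFun_injective : Function.Injective (swapFun hqN hℓN) := by
  rintro ⟨x, y⟩ ⟨x', y'⟩ h
  obtain ⟨c, hc, hrel⟩ := swapFun_spec hqN hℓN (x, y)
  obtain ⟨c', hc', hrel'⟩ := swapFun_spec hqN hℓN (x', y')
  rw [h] at hrel
  simp only at hrel hrel'
  have hcc : (mapGL ℝ c⁻¹ : GL (Fin 2) ℝ) * (heckeRep ℓ y * aRep hqN x) =
      (mapGL ℝ c'⁻¹ : GL (Fin 2) ℝ) * (heckeRep ℓ y' * aRep hqN x') := by
    rw [hrel, hrel', map_inv, map_inv, inv_mul_cancel_left, inv_mul_cancel_left]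
  obtain ⟨h1, h2⟩ := swap_unique hqN hℓNq (inv_mem hc) (inv_mem hc') hcc
  rw [h1, h2]

include hℓNq in
theorem swapFun_bijective : Function.Bijective (swapFun hqN hℓN) := by
  rw [Fintype.bijective_iff_injective_and_card]
  exact ⟨swapFun_injective hqN hℓN hℓNq, by rw [Fintype.card_prod, Fintype.card_prod, mul_comm]⟩

end Swap

section Norm

variable {N q ℓ : ℕ} [NeZero N] [Fact q.Prime] [Fact ℓ.Prime] (hqN : ¬ q ∣ N) (hℓN : ¬ ℓ ∣ N)
  (hℓNq : ¬ ℓ ∣ N * q)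

theorem heckeRep_det_pos (y : OnePoint (ZMod ℓ)) : 0 < (heckeRep ℓ y).det.val :=
  haveI : NeZero ℓ := ⟨(Fact.out : ℓ.Prime).ne_zero⟩
  (isIntMat_heckeRep ℓ y).det_pos

include hℓN hℓNq in
/-- the two double products of conjugates coincide -/
theorem prod_swap (k : WH0.FunField (Gamma0 (N * q))) :
    ∏ x : OnePoint (ZMod q), merComp (aRep hqN x) (aRep_det_pos hqN x)
        (∏ y : OnePoint (ZMod ℓ), merComp (heckeRep ℓ y) (heckeRep_det_pos y)
          (toMer (Gamma0 (N * q)) k)) =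
      ∏ y : OnePoint (ZMod ℓ), merComp (heckeRep ℓ y) (heckeRep_det_pos y)
        (∏ x : OnePoint (ZMod q), merComp (aRep hqN x) (aRep_det_pos hqN x)
          (toMer (Gamma0 (N * q)) k)) := by
  set F : Mer := toMer (Gamma0 (N * q)) k with hF
  have hL : ∀ x : OnePoint (ZMod q), merComp (aRep hqN x) (aRep_det_pos hqN x)
      (∏ y : OnePoint (ZMod ℓ), merComp (heckeRep ℓ y) (heckeRep_det_pos y) F) =
      ∏ y : OnePoint (ZMod ℓ), merComp (heckeRep ℓ y * aRep hqN x)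
        (det_pos_mul (heckeRep_det_pos y) (aRep_det_pos hqN x)) F := by
    intro x
    rw [map_prod]
    exact Finset.prod_congr rfl fun y _ => merComp_comp _ _ F
  have hR : ∀ y : OnePoint (ZMod ℓ), merComp (heckeRep ℓ y) (heckeRep_det_pos y)
      (∏ x : OnePoint (ZMod q), merComp (aRep hqN x) (aRep_det_pos hqN x) F) =
      ∏ x : OnePoint (ZMod q), merComp (aRep hqN x * heckeRep ℓ y)
        (det_pos_mul (aRep_det_pos hqN x) (heckeRep_det_pos y)) F := by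
    intro y
    rw [map_prod]
    exact Finset.prod_congr rfl fun x _ => merComp_comp _ _ F
  simp only [hL, hR]
  rw [← Fintype.prod_prod_type', ← Fintype.prod_prod_type']
  refine Fintype.prod_bijective (swapFun hqN hℓN) (swapFun_bijective hqN hℓN hℓNq) _ _ ?_
  intro p
  obtain ⟨c, hc, hrel⟩ := swapFun_spec hqN hℓN p
  rw [merComp_eq_of_eq _ (det_pos_mul (isIntMat_mapGL c).det_pos
    (det_pos_mul (aRep_det_pos hqN _) (heckeRep_det_pos _))) hrel,
    ← merComp_comp (isIntMat_mapGL c).det_pos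
      (det_pos_mul (aRep_det_pos hqN _) (heckeRep_det_pos _)), hF,
    merComp_toMer_of_mem (Gamma0 (N * q)) hc k]


variable {L : Type*} [Field L] [Algebra ℚ L] (e : L →+* ℂ)

include hqN hℓN hℓNq e in
/-- **`Norm_α ∘ (Kummer representative of T_ℓ at level N q) =
(Kummer representative of T_ℓ at level N) ∘ Norm_α`.** -/
theorem norm_alpha_norm_alpha_beta (f : FBar L (N * q)) :
    haveI : NeZero ℓ := ⟨(Fact.out : ℓ.Prime).ne_zero⟩
    haveI : NeZero q := ⟨(Fact.out : q.Prime).ne_zero⟩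
    @Algebra.norm (FBar L N) (FBar L (N * q)) _ _ (heckeAlphaBar L N q).toRingHom.toAlgebra
        (@Algebra.norm (FBar L (N * q)) (FBar L (N * q * ℓ)) _ _
          (heckeAlphaBar L (N * q) ℓ).toRingHom.toAlgebra (heckeBetaBar L (N * q) ℓ f)) =
      @Algebra.norm (FBar L N) (FBar L (N * ℓ)) _ _ (heckeAlphaBar L N ℓ).toRingHom.toAlgebra
        (heckeBetaBar L N ℓ
          (@Algebra.norm (FBar L N) (FBar L (N * q)) _ _
            (heckeAlphaBar L N q).toRingHom.toAlgebra f)) := by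
  haveI : NeZero ℓ := ⟨(Fact.out : ℓ.Prime).ne_zero⟩
  haveI : NeZero q := ⟨(Fact.out : q.Prime).ne_zero⟩
  have hinj : Function.Injective ((toMer (Gamma0 N)).comp (ΦBar N e)) :=
    ((toMer (Gamma0 N)).comp (ΦBar N e)).injective
  apply hinj
  show toMer (Gamma0 N) (ΦBar N e _) = toMer (Gamma0 N) (ΦBar N e _)
  rw [toMer_norm_alpha hqN e, toMer_norm_alpha_beta e hℓN]
  simp only [Transversal.emb_apply]
  rw [toMer_norm_alpha hqN e f]
  simp only [Transversal.emb_apply]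
  have h1 := toMer_norm_alpha_beta e hℓNq f
  rw [h1]
  exact prod_swap hqN hℓN hℓNq (ΦBar (N * q) e f)

end Norm

end Fermat.Agent.S35lib.New
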