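/-
S35lib / New / PushHeckeJ  (helper5)   -- brick R2.3 of route FN (S35), J-level

The push-forward `pushA N q = α_* : J₀(N q) → J₀(N)` (`q ∤ N` prime) and its compatibility with the
Hecke operators `TJ ℓ`, `ℓ ∤ N q`, on torsion classes:  `α_* (TJ ℓ x) = TJ ℓ (α_* x)`.
-/
import Mathlib
import Fermat.Agent.S35lib.New.PushHecke
import Fermat.Agent.S29lib.D.AsmHeckeNorm
import Fermat.Agent.LSb.Xfer.PushPull

set_option autoImplicit false
set_option linter.style.haveILetI false
set_option linter.unusedSectionVars false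

noncomputable section

namespace Fermat.Agent.S35lib.New

open AlgebraicCurve ModularCurve
open Fermat.Agent.S29lib Fermat.Agent.S29lib.D Fermat.Agent.S37lib.HeckeInst
open Fermat.Agent.ProgramR.BarField

/-- `ℚ̄` -/
local notation "Qb" => AlgebraicClosure ℚ

/-! ### Uniqueness of the class of a Kummer representative -/

theorem KummerRel_class_unique {K F : Type*} [Field K] [Field F] [Algebra K F] {n : ℕ}
    (hn : 0 < n) {x y : Pic0 K F} {f : F} (hx : KummerRel n x f) (hy : KummerRel n y f) :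
    x = y := by
  obtain ⟨-, D, rfl, hD⟩ := hx
  obtain ⟨-, E, rfl, hE⟩ := hy
  have hn' : (n : ℤ) ≠ 0 := by exact_mod_cast hn.ne'
  have : D = E := by
    apply Subtype.ext
    ext P
    exact mul_left_cancel₀ hn' ((hD P).trans (hE P).symm)
  rw [this]

/-! ### The push-forward `α_*` -/

section Push

variable (N q : ℕ) [NeZero N] [NeZero q]

/-- the push-forward `α_* : J₀(N q) → J₀(N)` along `heckeAlphaBar N q` -/
def pushA : JZero (N * q) →+ JZero N :=
  haveI := hasPrincipalDivisors_FB (N * q)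
  Fermat.Agent.LSb.Xfer.pic0PushforwardAlong (heckeAlphaBar Qb N q) (heckeAlphaBarIntegral N q)
    (finiteAlong_alpha N q) (normFormulaAlong_alpha N q)

/-- Kummer representatives under `α_*`: the norm along `α`. -/
theorem kummerRel_pushA {n : ℕ} {x : JZero (N * q)} {f : modularFunctionFieldBar (N * q)}
    (h : KummerRel n x f) :
    KummerRel n (pushA N q x) (normAlong (heckeAlphaBar Qb N q) f) := by
  haveI := hasPrincipalDivisors_FB (N * q)
  obtain ⟨hf, D, rfl, hD⟩ := h
  refine ⟨normAlong_ne_zero (heckeAlphaBar Qb N q) hf (finiteAlong_alpha N q), _,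
    (Fermat.Agent.LSb.Xfer.pic0PushforwardAlong_mk (heckeAlphaBar Qb N q)
      (heckeAlphaBarIntegral N q) (finiteAlong_alpha N q) (normFormulaAlong_alpha N q) D).symm,
    fun P => ?_⟩
  show (n : ℤ) * Divisor.pushforwardAlong (heckeAlphaBar Qb N q) (heckeAlphaBarIntegral N q)
    (D : Divisor Qb (modularFunctionFieldBar (N * q))) P = _
  have h1 : ∀ w : Place Qb (modularFunctionFieldBar (N * q)),
      ((n : ℤ) • (D : Divisor Qb (modularFunctionFieldBar (N * q)))) w = w.ord f := fun w => by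
    rw [Finsupp.smul_apply, smul_eq_mul, hD w]
  have h2 := pushforwardAlong_apply_eq_ord (heckeAlphaBar Qb N q) (heckeAlphaBarIntegral N q)
    (finiteAlong_alpha N q) (normFormulaAlong_alpha N q) hf h1 P
  rw [← h2, map_zsmul, Finsupp.smul_apply, smul_eq_mul]

end Push

/-! ### `α_*` commutes with the good Hecke operators -/

section Comm

variable {N q : ℕ} [NeZero N] [Fact q.Prime] (hqN : ¬ q ∣ N)

include hqN in
/-- **`α_* ∘ TJ ℓ = TJ ℓ ∘ α_*` on torsion classes, `ℓ ∤ N q`.** -/
theorem pushA_TJ (ℓ : Nat.Primes) (hℓ : ¬ (ℓ : ℕ) ∣ N * q) {n : ℕ} (hn : 0 < n)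
    (x : JZero (N * q)) (hx : (n : ℤ) • x = 0) :
    haveI : NeZero q := ⟨(Fact.out : q.Prime).ne_zero⟩
    pushA N q (H.TJ (N * q) ℓ x) = H.TJ N ℓ (pushA N q x) := by
  haveI : NeZero q := ⟨(Fact.out : q.Prime).ne_zero⟩
  haveI : Fact (ℓ : ℕ).Prime := ⟨ℓ.2⟩
  haveI : NeZero (ℓ : ℕ) := ⟨ℓ.2.ne_zero⟩
  have hℓN : ¬ (ℓ : ℕ) ∣ N := fun h => hℓ (Dvd.dvd.mul_right h q)
  obtain ⟨f, hf⟩ := exists_kummerRel hx
  -- left hand side
  have h1 := kummerRel_pushA N q (kummerRel_TJ (N * q) ℓ hf)
  rw [normTJ_of_not_dvd (N * q) hℓ] at h1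
  -- right hand side
  have h2 := kummerRel_TJ N ℓ (kummerRel_pushA N q hf)
  rw [normTJ_of_not_dvd N hℓN] at h2
  -- the two representatives coincide
  have key : normAlong (heckeAlphaBar Qb N q) (normStd (N * q) ℓ f) =
      normStd N ℓ (normAlong (heckeAlphaBar Qb N q) f) :=
    norm_alpha_norm_alpha_beta hqN hℓN hℓ qbarEmb f
  rw [key] at h1
  exact KummerRel_class_unique hn h1 h2

end Comm

end Fermat.Agent.S35lib.New
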